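import Mathlib
import Fermat.Prelude.Def_AlgebraicCurve_Repartitions

/-!
# Abstract good reduction (Deuring style): interface

`IsConstRed O red` : a "constant reduction" of a function field `F/K` onto `Fb/k`.
-/

set_option autoImplicit false

namespace Fermat.Agent.RIN

open AlgebraicCurve

variable (K : Type*) {F : Type*} (k : Type*) {Fb : Type*}
  [Field K] [Field F] [Algebra K F] [Field k] [Field Fb] [Algebra k Fb]

/-- `O` is a valuation subring of `F` with residue map `red` onto `Fb`, of Gauss type
over the constants: constants reduce onto constants and every nonzero function is a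
constant times a unit of `O`. -/
structure IsConstRed (O : ValuationSubring F) (red : O →+* Fb) : Prop where
  surj : Function.Surjective red
  ker : ∀ x : O, red x = 0 ↔ ¬ IsUnit x
  const : ∀ (a : K) (ha : algebraMap K F a ∈ O), ∃ c : k, red ⟨_, ha⟩ = algebraMap k Fb c
  const_surj : ∀ c : k, ∃ (a : K) (ha : algebraMap K F a ∈ O), red ⟨_, ha⟩ = algebraMap k Fb c
  gauss : ∀ f : F, f ≠ 0 → ∃ a : K, a ≠ 0 ∧ ∃ h : algebraMap K F a * f ∈ O, red ⟨_, h⟩ ≠ 0

end Fermat.Agent.RIN
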