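import Mathlib
import Fermat.Prelude.Def_AlgebraicCurve_Repartitions

/-!
# Basic facts on Riemann–Roch spaces of a field with places of degree one
-/

set_option autoImplicit false

namespace Fermat.Agent.RIN

open AlgebraicCurve

section Ord

variable {K F : Type*} [Field K] [Field F] [Algebra K F] (v : Place K F)

theorem mem_of_ord_nonneg {f : F} (h : 0 ≤ v.ord f) : f ∈ v.toValuationSubring := by
  rcases eq_or_ne f 0 with rfl | hf
  · exact zero_mem _
  obtain ⟨π, hπ⟩ := IsDiscreteValuationRing.exists_irreducible v.toValuationSubring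
  obtain ⟨u, hu⟩ := v.exists_unit_mul_zpow hf hπ
  rw [hu]
  obtain ⟨n, hn⟩ := Int.eq_ofNat_of_zero_le h
  rw [hn, zpow_natCast]
  exact mul_mem (u : v.toValuationSubring).2 (pow_mem π.2 n)

theorem ord_nonneg_of_mem {f : F} (h : f ∈ v.toValuationSubring) : 0 ≤ v.ord f := by
  rcases eq_or_ne f 0 with rfl | hf
  · simp
  have := (v.adicValuation_le_one_iff (f := f)).mp (v.adicValuation_le_one_of_mem h)
  tauto

theorem ord_add_ge {f g : F} (hfg : f + g ≠ 0) :
    min (v.ord f) (v.ord g) ≤ v.ord (f + g) := by
  rcases eq_or_ne f 0 with rfl | hf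
  · simp
  rcases eq_or_ne g 0 with rfl | hg
  · simp
  have h := Valuation.map_add v.adicValuation f g
  rw [v.adicValuation_eq_exp_neg_ord hfg, v.adicValuation_eq_exp_neg_ord hf,
    v.adicValuation_eq_exp_neg_ord hg] at h
  rcases le_max_iff.mp h with h | h
  · rw [WithZero.exp_le_exp] at h
    exact (min_le_left _ _).trans (by omega)
  · rw [WithZero.exp_le_exp] at h
    exact (min_le_right _ _).trans (by omega)

theorem ord_algebraMap (c : K) : v.ord (algebraMap K F c) = 0 := by
  rcases eq_or_ne c 0 with rfl | hc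
  · simp
  have h1 := ord_nonneg_of_mem v (v.algebraMap_mem' c)
  have h2 := ord_nonneg_of_mem v (v.algebraMap_mem' c⁻¹)
  rw [map_inv₀, v.ord_inv] at h2
  omega

theorem ord_pow (f : F) (n : ℕ) : v.ord (f ^ n) = n * v.ord f := by
  have := v.ord_zpow f n
  simpa using this

/-- a nonzero non-unit of the valuation ring has positive order -/
theorem ord_pos_of_not_isUnit {f : F} (hf : f ≠ 0) (hmem : f ∈ v.toValuationSubring)
    (hnu : ¬ IsUnit (⟨f, hmem⟩ : v.toValuationSubring)) : 0 < v.ord f := by
  have h0 := ord_nonneg_of_mem v hmem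
  rcases h0.lt_or_eq with h | h
  · exact h
  · exfalso
    apply hnu
    rw [← v.adicValuation_coe_eq_one_iff]
    show v.adicValuation f = 1
    rw [v.adicValuation_eq_exp_neg_ord hf, ← h]
    simp

/-- at a place of degree one every element of the valuation ring is congruent to a constant -/
theorem exists_const_sub (hdeg : v.deg = 1) {u : F} (hu : u ∈ v.toValuationSubring) :
    ∃ c : K, u - algebraMap K F c = 0 ∨ 0 < v.ord (u - algebraMap K F c) := by
  have h1 : Module.finrank K v.ResidueField = 1 := hdeg
  have hne : (1 : v.ResidueField) ≠ 0 := one_ne_zero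
  obtain ⟨c, hc⟩ := (finrank_eq_one_iff_of_nonzero' (1 : v.ResidueField) hne).mp h1
    (IsLocalRing.residue v.toValuationSubring ⟨u, hu⟩)
  refine ⟨c, ?_⟩
  by_cases h0 : u - algebraMap K F c = 0
  · exact Or.inl h0
  right
  have hmem : u - algebraMap K F c ∈ v.toValuationSubring :=
    sub_mem hu (v.algebraMap_mem' c)
  refine ord_pos_of_not_isUnit v h0 hmem ?_
  have hres : IsLocalRing.residue v.toValuationSubring ⟨u - algebraMap K F c, hmem⟩ = 0 := by
    have e : (⟨u - algebraMap K F c, hmem⟩ : v.toValuationSubring)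
        = ⟨u, hu⟩ - algebraMap K v.toValuationSubring c := by
      ext; simp
    rw [e, map_sub, ← hc, Algebra.smul_def, mul_one]
    rw [sub_eq_zero]
    rfl
  rw [IsLocalRing.residue_eq_zero_iff] at hres
  exact hres

end Ord


section Div

variable {K F : Type*} [Field K] [Field F] [Algebra K F]

open Classical in
/-- a divisor of a function (the zero divisor for the zero function) -/
noncomputable def divOf (K : Type*) {F : Type*} [Field K] [Field F] [Algebra K F]
    [HasPrincipalDivisors K F] (f : F) : Divisor K F :=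
  if h : f ≠ 0 then (HasPrincipalDivisors.exists_divisor (K := K) f h).choose else 0

theorem divOf_apply [HasPrincipalDivisors K F] (f : F) (P : Place K F) :
    divOf K f P = P.ord f := by
  unfold divOf
  split_ifs with h
  · exact (HasPrincipalDivisors.exists_divisor (K := K) f h).choose_spec.1 P
  · have : f = 0 := not_not.mp h
    subst this
    simp

theorem degree_divOf [HasPrincipalDivisors K F] (f : F) :
    Divisor.degree (divOf K f) = 0 := by
  unfold divOf
  split_ifs with h
  · exact (HasPrincipalDivisors.exists_divisor (K := K) f h).choose_spec.2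
  · simp

theorem degree_eq_sum' (D : Divisor K F) :
    Divisor.degree D = D.sum fun v n => n * (v.deg : ℤ) := by
  simp [Divisor.degree, Finsupp.liftAddHom_apply]

theorem degree_nonneg {D : Divisor K F} (h : ∀ P, 0 ≤ D P) : 0 ≤ Divisor.degree D := by
  rw [degree_eq_sum']
  exact Finset.sum_nonneg fun P _ => mul_nonneg (h P) (Int.natCast_nonneg _)

theorem degree_mono {D E : Divisor K F} (h : ∀ P, D P ≤ E P) :
    Divisor.degree D ≤ Divisor.degree E := by
  have h0 : 0 ≤ Divisor.degree (E - D) :=
    degree_nonneg fun P => by rw [Finsupp.sub_apply]; exact sub_nonneg.mpr (h P)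
  rw [map_sub] at h0
  linarith

theorem eq_of_le_of_degree_le (hdeg : ∀ P : Place K F, P.deg = 1) {D E : Divisor K F}
    (h : ∀ P, D P ≤ E P) (hd : Divisor.degree E ≤ Divisor.degree D) : D = E := by
  have h0 : Divisor.degree (E - D) ≤ 0 := by rw [map_sub]; linarith
  rw [degree_eq_sum'] at h0
  have hnn : ∀ P ∈ (E - D).support, 0 ≤ (E - D) P * ((P.deg : ℕ) : ℤ) := fun P _ =>
    mul_nonneg (by rw [Finsupp.sub_apply]; exact sub_nonneg.mpr (h P)) (Int.natCast_nonneg _)
  have hz : ((E - D).sum fun v n => n * (v.deg : ℤ)) = 0 :=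
    le_antisymm h0 (Finset.sum_nonneg hnn)
  have hall := (Finset.sum_eq_zero_iff_of_nonneg hnn).mp hz
  ext P
  by_cases hP : P ∈ (E - D).support
  · have := hall P hP
    rw [hdeg P] at this
    simp only [Nat.cast_one, mul_one, Finsupp.sub_apply] at this
    omega
  · rw [Finsupp.notMem_support_iff, Finsupp.sub_apply] at hP
    omega

theorem degree_single_one (hdeg : ∀ P : Place K F, P.deg = 1) (P : Place K F) (n : ℤ) :
    Divisor.degree (Finsupp.single P n) = n := by
  rw [Divisor.degree_single, hdeg P]; simp

theorem degree_mapDomain {k Fb : Type*} [Field k] [Field Fb] [Algebra k Fb]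
    (r : Place K F → Place k Fb) (hr : ∀ P, (r P).deg = P.deg) (D : Divisor K F) :
    Divisor.degree (Finsupp.mapDomain r D) = Divisor.degree D := by
  induction D using Finsupp.induction with
  | zero => simp
  | single_add P n D _ _ ih =>
    rw [Finsupp.mapDomain_add, map_add, map_add, ih, Finsupp.mapDomain_single,
      Divisor.degree_single, Divisor.degree_single, hr]

end Div

section LSpace

variable {K F : Type*} [Field K] [Field F] [Algebra K F]

local notation "L" => riemannRochSpace (K := K) (F := F)

theorem L_mono {D D' : Divisor K F} (h : ∀ P, D P ≤ D' P) : L D ≤ L D' := by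
  intro f hf
  rw [mem_riemannRochSpace_iff] at hf ⊢
  intro v
  rcases hf v with h0 | h1
  · exact Or.inl h0
  · exact Or.inr (by have := h v; omega)

theorem mul_mem_L {D E : Divisor K F} {f g : F} (hf : f ∈ L D) (hg : g ∈ L E) :
    f * g ∈ L (D + E) := by
  rw [mem_riemannRochSpace_iff] at hf hg ⊢
  intro v
  rcases eq_or_ne f 0 with rfl | hf0
  · simp
  rcases eq_or_ne g 0 with rfl | hg0
  · simp
  right
  have h1 := (hf v).resolve_left hf0
  have h2 := (hg v).resolve_left hg0
  rw [v.ord_mul hf0 hg0, Finsupp.add_apply]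
  omega

theorem algebraMap_mem_L {D : Divisor K F} (h : ∀ P, 0 ≤ D P) (c : K) :
    algebraMap K F c ∈ L D := by
  rw [mem_riemannRochSpace_iff]
  intro v
  right
  rw [ord_algebraMap]
  have := h v
  omega

theorem one_mem_L {D : Divisor K F} (h : ∀ P, 0 ≤ D P) : (1 : F) ∈ L D := by
  have := algebraMap_mem_L h (1 : K)
  simpa using this

theorem L_eq_bot [HasPrincipalDivisors K F] {D : Divisor K F} (h : Divisor.degree D < 0) :
    L D = ⊥ := by
  rw [Submodule.eq_bot_iff]
  intro f hf
  by_contra hf0
  rw [mem_riemannRochSpace_iff] at hf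
  have hnn : 0 ≤ Divisor.degree (divOf K f + D) := degree_nonneg fun P => by
    have := (hf P).resolve_left hf0
    rw [Finsupp.add_apply, divOf_apply]
    omega
  rw [map_add, degree_divOf] at hnn
  omega

/-- codimension at most one: one step -/
theorem L_step_pair {P : Place K F} (hdeg : P.deg = 1) (D : Divisor K F) {f g : F}
    (hf : f ∈ L (D + Finsupp.single P 1)) (hg : g ∈ L (D + Finsupp.single P 1))
    (hfD : f ∉ L D) : ∃ c : K, g - c • f ∈ L D := by
  classical
  have hf0 : f ≠ 0 := fun h => hfD (h ▸ zero_mem _)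
  rw [mem_riemannRochSpace_iff] at hf
  -- the order of f at P is exactly -D P - 1
  have hfP : P.ord f = -D P - 1 := by
    by_contra hne
    apply hfD
    rw [mem_riemannRochSpace_iff]
    intro v
    right
    have := (hf v).resolve_left hf0
    rw [Finsupp.add_apply] at this
    by_cases hv : v = P
    · subst hv
      rw [Finsupp.single_eq_same] at this
      omega
    · rw [Finsupp.single_eq_of_ne hv] at this
      omega
  by_cases hgD : g ∈ L D
  · exact ⟨0, by simpa using hgD⟩
  have hg0 : g ≠ 0 := fun h => hgD (h ▸ zero_mem _)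
  have hg' := hg
  rw [mem_riemannRochSpace_iff] at hg'
  have hgP : P.ord g = -D P - 1 := by
    by_contra hne
    apply hgD
    rw [mem_riemannRochSpace_iff]
    intro v
    right
    have := (hg' v).resolve_left hg0
    rw [Finsupp.add_apply] at this
    by_cases hv : v = P
    · subst hv
      rw [Finsupp.single_eq_same] at this
      omega
    · rw [Finsupp.single_eq_of_ne hv] at this
      omega
  have hu : g * f⁻¹ ∈ P.toValuationSubring := by
    apply mem_of_ord_nonneg
    rw [P.ord_mul hg0 (inv_ne_zero hf0), P.ord_inv]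
    omega
  obtain ⟨c, hc⟩ := exists_const_sub P hdeg hu
  refine ⟨c, ?_⟩
  have hmem : g - c • f ∈ L (D + Finsupp.single P 1) :=
    sub_mem hg (Submodule.smul_mem _ c ((mem_riemannRochSpace_iff).mpr hf))
  have hfact : g - c • f = f * (g * f⁻¹ - algebraMap K F c) := by
    rw [Algebra.smul_def]
    field_simp
  rw [mem_riemannRochSpace_iff] at hmem ⊢
  intro v
  by_cases h0 : g - c • f = 0
  · exact Or.inl h0
  right
  have := (hmem v).resolve_left h0
  rw [Finsupp.add_apply] at this
  by_cases hv : v = P
  · subst hv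
    rcases hc with hc | hc
    · exfalso; apply h0; rw [hfact, hc, mul_zero]
    · have hne : g * f⁻¹ - algebraMap K F c ≠ 0 := by
        intro h; apply h0; rw [hfact, h, mul_zero]
      rw [hfact, v.ord_mul hf0 hne]
      omega
  · rw [Finsupp.single_eq_of_ne hv] at this
    omega

theorem L_step {P : Place K F} (hdeg : P.deg = 1) (D : Divisor K F)
    (hfin : FiniteDimensional K (L D)) :
    FiniteDimensional K (L (D + Finsupp.single P 1)) ∧
      Module.finrank K (L (D + Finsupp.single P 1)) ≤ Module.finrank K (L D) + 1 := by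
  classical
  have hle : L D ≤ L (D + Finsupp.single P 1) := L_mono fun v => by
    rw [Finsupp.add_apply]
    have : (0 : ℤ) ≤ (Finsupp.single P (1 : ℤ)) v := by
      by_cases hv : v = P
      · subst hv; simp
      · rw [Finsupp.single_eq_of_ne hv]
    omega
  by_cases hex : ∃ f, f ∈ L (D + Finsupp.single P 1) ∧ f ∉ L D
  · obtain ⟨f, hf, hfD⟩ := hex
    have hsub : L (D + Finsupp.single P 1) ≤ L D ⊔ Submodule.span K {f} := by
      intro g hg
      obtain ⟨c, hc⟩ := L_step_pair hdeg D hf hg hfD
      have : g = (g - c • f) + c • f := by ring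
      rw [this]
      exact Submodule.add_mem_sup hc (Submodule.smul_mem _ c (Submodule.mem_span_singleton_self f))
    have : FiniteDimensional K (L D) := hfin
    have : FiniteDimensional K (↥(L D ⊔ Submodule.span K {f})) := inferInstance
    have hfd : FiniteDimensional K (L (D + Finsupp.single P 1)) :=
      Submodule.finiteDimensional_of_le hsub
    refine ⟨hfd, ?_⟩
    calc Module.finrank K (L (D + Finsupp.single P 1))
        ≤ Module.finrank K ↥(L D ⊔ Submodule.span K {f}) := Submodule.finrank_mono hsub
      _ ≤ Module.finrank K (L D) + Module.finrank K (Submodule.span K {f}) :=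
          Submodule.finrank_add_le_finrank_add_finrank _ _
      _ ≤ Module.finrank K (L D) + 1 := by
          have hf0 : f ≠ 0 := fun h => hfD (h ▸ zero_mem _)
          rw [finrank_span_singleton hf0]
  · push Not at hex
    have heq : L (D + Finsupp.single P 1) = L D := le_antisymm hex hle
    rw [heq]
    exact ⟨hfin, Nat.le_succ _⟩


theorem L_finite_aux [HasPrincipalDivisors K F] (hdeg : ∀ P : Place K F, P.deg = 1)
    (P₀ : Place K F) (E : Divisor K F) (hE : Divisor.degree E < 0) (i : ℕ) :
    FiniteDimensional K (L (E + i • Finsupp.single P₀ (1 : ℤ))) ∧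
      Module.finrank K (L (E + i • Finsupp.single P₀ (1 : ℤ))) ≤ i := by
  induction i with
  | zero =>
    rw [zero_smul, add_zero, L_eq_bot hE]
    exact ⟨inferInstance, by simp⟩
  | succ i ih =>
    have e : E + (i + 1) • Finsupp.single P₀ (1 : ℤ)
        = (E + i • Finsupp.single P₀ (1 : ℤ)) + Finsupp.single P₀ 1 := by
      rw [add_smul, one_smul, add_assoc]
    rw [e]
    obtain ⟨h1, h2⟩ := L_step (hdeg P₀) (E + i • Finsupp.single P₀ (1 : ℤ)) ih.1
    exact ⟨h1, h2.trans (by omega)⟩

theorem L_finite_and_bound [HasPrincipalDivisors K F] (hdeg : ∀ P : Place K F, P.deg = 1)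
    [Nonempty (Place K F)] (D : Divisor K F) :
    FiniteDimensional K (L D) ∧
      (Module.finrank K (L D) : ℤ) ≤ max (Divisor.degree D + 1) 0 := by
  obtain ⟨P₀⟩ := ‹Nonempty (Place K F)›
  set n : ℕ := (max (Divisor.degree D + 1) 0).toNat with hn
  have hn' : (n : ℤ) = max (Divisor.degree D + 1) 0 := by
    rw [hn, Int.toNat_of_nonneg (le_max_right _ _)]
  set E : Divisor K F := D - n • Finsupp.single P₀ (1 : ℤ) with hE
  have hdE : Divisor.degree E < 0 := by
    rw [hE, map_sub, map_nsmul, degree_single_one hdeg, nsmul_eq_mul, mul_one, hn']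
    have := le_max_left (Divisor.degree D + 1) 0
    omega
  have key := L_finite_aux hdeg P₀ E hdE n
  have e : E + n • Finsupp.single P₀ (1 : ℤ) = D := by rw [hE]; abel
  rw [e] at key
  exact ⟨key.1, by rw [← hn']; exact_mod_cast key.2⟩

theorem L_finite [HasPrincipalDivisors K F] (hdeg : ∀ P : Place K F, P.deg = 1)
    [Nonempty (Place K F)] (D : Divisor K F) : FiniteDimensional K (L D) :=
  (L_finite_and_bound hdeg D).1

theorem finrank_L_le [HasPrincipalDivisors K F] (hdeg : ∀ P : Place K F, P.deg = 1)
    [Nonempty (Place K F)] {D : Divisor K F} (hD : ∀ P, 0 ≤ D P) :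
    (Module.finrank K (L D) : ℤ) ≤ Divisor.degree D + 1 := by
  have h := (L_finite_and_bound hdeg D).2
  have h0 := degree_nonneg hD
  rwa [max_eq_left (by omega)] at h

/-- the pole divisor of a function -/
noncomputable def poleDiv (K : Type*) {F : Type*} [Field K] [Field F] [Algebra K F]
    [HasPrincipalDivisors K F] (f : F) : Divisor K F :=
  (divOf K f).mapRange (fun n => max (-n) 0) (by simp)

theorem poleDiv_apply [HasPrincipalDivisors K F] (f : F) (P : Place K F) :
    poleDiv K f P = max (-(P.ord f)) 0 := by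
  rw [poleDiv, Finsupp.mapRange_apply, divOf_apply]

theorem poleDiv_nonneg [HasPrincipalDivisors K F] (f : F) (P : Place K F) :
    0 ≤ poleDiv K f P := by
  rw [poleDiv_apply]; exact le_max_right _ _

theorem mem_L_of_poleDiv_le [HasPrincipalDivisors K F] {f : F} {D : Divisor K F}
    (h : ∀ P, poleDiv K f P ≤ D P) : f ∈ L D := by
  rw [mem_riemannRochSpace_iff]
  intro v
  right
  have := h v
  rw [poleDiv_apply] at this
  have := le_max_left (-(v.ord f)) 0
  omega

theorem mem_L_poleDiv [HasPrincipalDivisors K F] (f : F) : f ∈ L (poleDiv K f) :=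
  mem_L_of_poleDiv_le fun _ => le_rfl

end LSpace

end Fermat.Agent.RIN
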