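import Fermat.Agent.RIN.Defs
import Fermat.Agent.RIN.LBasic

/-!
# Reduction of finite-dimensional subspaces (lattice lemma)
-/

set_option autoImplicit false

namespace Fermat.Agent.RIN

open AlgebraicCurve

variable {K F k Fb : Type*} [Field K] [Field F] [Algebra K F] [Field k] [Field Fb] [Algebra k Fb]
variable {O : ValuationSubring F} {red : O →+* Fb}

/-- the reduction of a `K`-subspace of `F`: a `k`-subspace of `Fb` -/
def redSpace (hO : IsConstRed K k O red) (M : Submodule K F) : Submodule k Fb where
  carrier := {g | ∃ f ∈ M, ∃ hf : f ∈ O, red ⟨f, hf⟩ = g}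
  zero_mem' := ⟨0, M.zero_mem, O.zero_mem, map_zero red⟩
  add_mem' := by
    rintro _ _ ⟨f, hfM, hf, rfl⟩ ⟨g, hgM, hg, rfl⟩
    exact ⟨f + g, M.add_mem hfM hgM, O.add_mem _ _ hf hg, map_add red ⟨f, hf⟩ ⟨g, hg⟩⟩
  smul_mem' := by
    rintro c _ ⟨f, hfM, hf, rfl⟩
    obtain ⟨a, ha, hac⟩ := hO.const_surj c
    refine ⟨a • f, M.smul_mem a hfM, ?_, ?_⟩
    · rw [Algebra.smul_def]; exact O.mul_mem _ _ ha hf
    · have e : (⟨a • f, by rw [Algebra.smul_def]; exact O.mul_mem _ _ ha hf⟩ : O)
          = ⟨algebraMap K F a, ha⟩ * ⟨f, hf⟩ := by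
        ext; simp [Algebra.smul_def]
      rw [e, map_mul, hac, Algebra.smul_def]

theorem mem_redSpace (hO : IsConstRed K k O red) {M : Submodule K F} {g : Fb} :
    g ∈ redSpace hO M ↔ ∃ f ∈ M, ∃ hf : f ∈ O, red ⟨f, hf⟩ = g := Iff.rfl

theorem red_mem_redSpace (hO : IsConstRed K k O red) {M : Submodule K F} {f : F} (hfM : f ∈ M)
    (hf : f ∈ O) : red ⟨f, hf⟩ ∈ redSpace hO M := ⟨f, hfM, hf, rfl⟩

theorem redSpace_mono (hO : IsConstRed K k O red) {M M' : Submodule K F} (h : M ≤ M') :
    redSpace hO M ≤ redSpace hO M' := by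
  rintro _ ⟨f, hfM, hf, rfl⟩
  exact ⟨f, h hfM, hf, rfl⟩

/-- lifts of `k`-linearly independent reductions are `K`-linearly independent -/
theorem linearIndependent_of_red (hO : IsConstRed K k O red) {ι : Type*} (f : ι → F)
    (hf : ∀ i, f i ∈ O) (hli : LinearIndependent k (fun i => red ⟨f i, hf i⟩)) :
    LinearIndependent K f := by
  classical
  rw [linearIndependent_iff']
  intro s g hsum i₀ hi₀
  by_contra hg0
  -- choose the coefficient of largest valuation
  obtain ⟨i₁, hi₁, hmax⟩ := Finset.exists_max_image s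
    (fun i => O.valuation (algebraMap K F (g i))) ⟨i₀, hi₀⟩
  have hv0 : O.valuation (algebraMap K F (g i₀)) ≠ 0 := by
    rw [Valuation.ne_zero_iff]
    exact fun h => hg0 ((map_eq_zero_iff _ (algebraMap K F).injective).mp h)
  have hv1 : O.valuation (algebraMap K F (g i₁)) ≠ 0 := by
    intro h
    have := hmax i₀ hi₀
    rw [h] at this
    exact hv0 (le_antisymm this zero_le)
  have hg1 : g i₁ ≠ 0 := by
    intro h; apply hv1; rw [h, map_zero, map_zero]
  -- normalised coefficients
  set a : ι → K := fun i => if i ∈ s then g i / g i₁ else 0 with ha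
  have haO : ∀ i, algebraMap K F (a i) ∈ O := by
    intro i
    rw [ha]
    by_cases hi : i ∈ s
    · simp only [hi, if_true]
      rw [← ValuationSubring.valuation_le_one_iff, map_div₀, map_div₀]
      exact div_le_one_of_le₀ (hmax i hi) zero_le
    · simp only [hi, if_false, map_zero]
      exact O.zero_mem
  have hsum' : ∑ i ∈ s, (⟨algebraMap K F (a i), haO i⟩ : O) * ⟨f i, hf i⟩ = 0 := by
    apply Subtype.ext
    push_cast
    have : ∀ i ∈ s, algebraMap K F (a i) * f i = (g i₁)⁻¹ • (g i • f i) := by
      intro i hi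
      simp only [ha, hi, if_true, Algebra.smul_def, map_div₀, map_inv₀]
      have h1 : algebraMap K F (g i₁) ≠ 0 :=
        (map_ne_zero_iff _ (algebraMap K F).injective).mpr hg1
      field_simp
    rw [Finset.sum_congr rfl this, ← Finset.smul_sum, hsum, smul_zero]
  have hred := congrArg red hsum'
  rw [map_sum, map_zero] at hred
  choose c hc using fun i => hO.const (a i) (haO i)
  have hred' : ∑ i ∈ s, c i • red ⟨f i, hf i⟩ = 0 := by
    rw [← hred]
    refine Finset.sum_congr rfl fun i _ => ?_
    rw [map_mul, hc i, Algebra.smul_def]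
  have hall := (linearIndependent_iff'.mp hli) s c hred' i₁ hi₁
  have h1 : a i₁ = 1 := by simp [ha, hi₁, hg1]
  have hc1 := hc i₁
  have e1 : (⟨algebraMap K F (a i₁), haO i₁⟩ : O) = 1 := by
    apply Subtype.ext; simp [h1]
  rw [e1, map_one, hall, map_zero] at hc1
  exact one_ne_zero hc1

theorem finrank_redSpace_le (hO : IsConstRed K k O red) (M : Submodule K F)
    [FiniteDimensional K M] :
    FiniteDimensional k (redSpace hO M) ∧
      Module.finrank k (redSpace hO M) ≤ Module.finrank K M := by
  classical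
  have hrank : Module.rank k (redSpace hO M) ≤ (Module.finrank K M : ℕ) := by
    apply rank_le
    intro s hs
    -- lift the elements of s
    have hex : ∀ x : s, ∃ f ∈ M, ∃ hf : f ∈ O, red ⟨f, hf⟩ = ((x : redSpace hO M) : Fb) :=
      fun x => (x : redSpace hO M).2
    choose f hfM hfO hfred using hex
    have hli : LinearIndependent k (fun x : s => red ⟨f x, hfO x⟩) := by
      have h2 : LinearIndependent k (fun x : s => (((x : redSpace hO M)) : Fb)) :=
        hs.map' (redSpace hO M).subtype (Submodule.ker_subtype _)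
      convert h2 using 1
      funext x
      exact hfred x
    have hK := linearIndependent_of_red hO f hfO hli
    have hK' : LinearIndependent K (fun x : s => (⟨f x, hfM x⟩ : M)) := by
      apply LinearIndependent.of_comp M.subtype
      exact hK
    have := hK'.fintype_card_le_finrank
    simpa using this
  have hfin : FiniteDimensional k (redSpace hO M) := by
    rw [FiniteDimensional, ← Module.rank_lt_aleph0_iff]
    exact lt_of_le_of_lt hrank Cardinal.natCast_lt_aleph0
  exact ⟨hfin, Module.finrank_le_of_rank_le hrank⟩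

theorem finrank_redSpace_eq (hO : IsConstRed K k O red) (M : Submodule K F)
    [FiniteDimensional K M]
    (hlat : ∃ b : Fin (Module.finrank K M) → F, ∃ hb : ∀ i, b i ∈ O, (∀ i, b i ∈ M) ∧
        LinearIndependent k (fun i => red ⟨b i, hb i⟩)) :
    Module.finrank k (redSpace hO M) = Module.finrank K M := by
  obtain ⟨hfin, hle⟩ := finrank_redSpace_le hO M
  refine le_antisymm hle ?_
  obtain ⟨b, hb, hbM, hli⟩ := hlat
  have hli' : LinearIndependent k
      (fun i => (⟨red ⟨b i, hb i⟩, red_mem_redSpace hO (hbM i) (hb i)⟩ : redSpace hO M)) := by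
    apply LinearIndependent.of_comp (redSpace hO M).subtype
    exact hli
  have := hli'.fintype_card_le_finrank
  simpa using this

end Fermat.Agent.RIN
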