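import Fermat.Agent.RIN.Defs

/-!
# RIN, leaf `LatticeGauss` (helper1014): the lattice hypothesis `hlat` of the abstract Deuring theorem

Setting of `Fermat.Agent.RIN.IsConstRed` (helper1601): `O` a valuation subring of a function field
`F/K`, `red : O →+* Fb` a constant reduction onto `Fb/k`.

* `exists_reduced_of_le_span` : Gaussian elimination over the valuation ring.  If `e : ι → F` is a
  family of elements of `O` whose reductions are `k`-linearly independent, every finite dimensional
  `K`-subspace of `span K (range e)` has a `K`-basis of elements of `O` with `k`-linearly independent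
  reductions.
* `hlat_of_finrank_eq` : the hypothesis `hlat` of `exists_placeReduction` from
  `x ∈ O`, `red x` transcendental over `k` and `[F : K(x)] = [Fb : k(red x)]` (finite).
-/

set_option autoImplicit false

namespace Fermat.Agent.RIN.LatticeGauss1014

open Polynomial IntermediateField

variable {K F k Fb : Type*} [Field K] [Field F] [Algebra K F] [Field k] [Field Fb] [Algebra k Fb]
variable {O : ValuationSubring F} {red : O →+* Fb}

/-! ### Units of `O` and the residue map on constants -/

theorem isUnit_of_red_ne_zero (hO : IsConstRed K k O red) {y : F} (hy : y ∈ O)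
    (h : red ⟨y, hy⟩ ≠ 0) : IsUnit (⟨y, hy⟩ : O) := by
  by_contra hu
  exact h ((hO.ker _).2 hu)

theorem inv_mem_of_red_ne_zero (hO : IsConstRed K k O red) {y : F} (hy : y ∈ O)
    (h : red ⟨y, hy⟩ ≠ 0) : y⁻¹ ∈ O := by
  obtain ⟨u, hu⟩ := isUnit_of_red_ne_zero hO hy h
  have h1 : ((u⁻¹ : Oˣ) : O) * ⟨y, hy⟩ = 1 := by rw [← hu]; exact u.inv_mul
  have h2 : (((u⁻¹ : Oˣ) : O) : F) * y = 1 := by
    have := congrArg (fun z : O => (z : F)) h1
    simpa using this
  have h3 : y⁻¹ = (((u⁻¹ : Oˣ) : O) : F) := by
    have hy0 : y ≠ 0 := by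
      rintro rfl
      simp at h2
    field_simp
    rw [mul_comm]; exact h2.symm
  rw [h3]
  exact ((u⁻¹ : Oˣ) : O).2

theorem ne_zero_of_red_ne_zero {y : F} (hy : y ∈ O) (h : red ⟨y, hy⟩ ≠ 0) : y ≠ 0 := by
  rintro rfl
  apply h
  have : (⟨0, hy⟩ : O) = 0 := rfl
  rw [this, map_zero]

/-- The residue map on constants, as a plain function `K → k` (zero outside `O`). -/
noncomputable def rho (hO : IsConstRed K k O red) (a : K) : k := by
  classical
  exact if h : algebraMap K F a ∈ O then Classical.choose (hO.const a h) else 0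

theorem rho_spec (hO : IsConstRed K k O red) (a : K) (h : algebraMap K F a ∈ O) :
    red ⟨_, h⟩ = algebraMap k Fb (rho hO a) := by
  classical
  unfold rho
  rw [dif_pos h]
  exact Classical.choose_spec (hO.const a h)

theorem rho_zero (hO : IsConstRed K k O red) : rho hO (0 : K) = 0 := by
  have h0 : algebraMap K F 0 ∈ O := by rw [map_zero]; exact O.zero_mem
  have h := rho_spec hO 0 h0
  have h1 : (⟨algebraMap K F 0, h0⟩ : O) = 0 := Subtype.ext (map_zero _)
  rw [h1, map_zero] at h
  exact (map_eq_zero_iff _ (algebraMap k Fb).injective).1 h.symm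

theorem rho_one (hO : IsConstRed K k O red) : rho hO (1 : K) = 1 := by
  have h0 : algebraMap K F 1 ∈ O := by rw [map_one]; exact O.one_mem
  have h := rho_spec hO 1 h0
  have h1 : (⟨algebraMap K F 1, h0⟩ : O) = 1 := Subtype.ext (map_one _)
  rw [h1, map_one] at h
  exact (algebraMap k Fb).injective (by rw [map_one]; exact h.symm)

/-! ### Reduction of a linear combination with integral coefficients -/

theorem red_linearCombination (hO : IsConstRed K k O red) {ι : Type*} (e : ι → F)
    (he : ∀ i, e i ∈ O) (l : ι →₀ K) (hl : ∀ i, algebraMap K F (l i) ∈ O) :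
    ∃ h : Finsupp.linearCombination K e l ∈ O,
      red ⟨_, h⟩ = Finsupp.linearCombination k (fun i => red ⟨e i, he i⟩)
        (l.mapRange (rho hO) (rho_zero hO)) := by
  classical
  set y : O := ∑ i ∈ l.support, (⟨algebraMap K F (l i), hl i⟩ : O) * ⟨e i, he i⟩ with hy
  have hyF : (y : F) = Finsupp.linearCombination K e l := by
    rw [Finsupp.linearCombination_apply, Finsupp.sum, hy]
    rw [show ((∑ i ∈ l.support, (⟨algebraMap K F (l i), hl i⟩ : O) * ⟨e i, he i⟩ : O) : F)
      = O.subtype (∑ i ∈ l.support, (⟨algebraMap K F (l i), hl i⟩ : O) * ⟨e i, he i⟩) from rfl,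
      map_sum]
    refine Finset.sum_congr rfl fun i _ => ?_
    rw [Algebra.smul_def]
    rfl
  have hmem : Finsupp.linearCombination K e l ∈ O := by rw [← hyF]; exact y.2
  refine ⟨hmem, ?_⟩
  have hyy : (⟨_, hmem⟩ : O) = y := Subtype.ext hyF.symm
  rw [hyy, hy, map_sum, Finsupp.linearCombination_apply,
    Finsupp.sum_mapRange_index (h := fun i (a : k) => a • red ⟨e i, he i⟩)
      (fun i => zero_smul k _), Finsupp.sum]
  refine Finset.sum_congr rfl fun i _ => ?_
  rw [map_mul, rho_spec hO (l i) (hl i), Algebra.smul_def]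

/-! ### Pivots -/

theorem exists_pivot {ι : Type*} (l : ι →₀ K) (hl : l ≠ 0) :
    ∃ i₀, l i₀ ≠ 0 ∧ ∀ i, algebraMap K F (l i / l i₀) ∈ O := by
  classical
  have hne : l.support.Nonempty := Finsupp.support_nonempty_iff.2 hl
  obtain ⟨i₀, hi₀, hmax⟩ := Finset.exists_max_image l.support
    (fun i => O.valuation (algebraMap K F (l i))) hne
  have hi₀' : l i₀ ≠ 0 := Finsupp.mem_support_iff.1 hi₀
  refine ⟨i₀, hi₀', fun i => ?_⟩
  by_cases hi : i ∈ l.support
  · rw [← ValuationSubring.valuation_le_one_iff, map_div₀, map_div₀]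
    have hv0 : O.valuation (algebraMap K F (l i₀)) ≠ 0 := by
      rw [Ne, map_eq_zero, map_eq_zero_iff _ (algebraMap K F).injective]
      exact hi₀'
    rw [div_le_one₀ (zero_lt_iff.2 hv0)]
    exact hmax i hi
  · rw [Finsupp.notMem_support_iff.1 hi, zero_div, map_zero]
    exact O.zero_mem

/-! ### Gaussian elimination -/

section Gauss

variable {ι : Type*} (e : ι → F) (he : ∀ i, e i ∈ O)

/-- A combination normalised at a pivot is a unit of `O` whose reduction has coefficient `1`
at the pivot. -/
theorem exists_red_normalized (hO : IsConstRed K k O red)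
    (hind : LinearIndependent k (fun i => red ⟨e i, he i⟩))
    (l : ι →₀ K) (i₀ : ι) (hi₀ : l i₀ ≠ 0) (hpiv : ∀ i, algebraMap K F (l i / l i₀) ∈ O) :
    ∃ h : (l i₀)⁻¹ • Finsupp.linearCombination K e l ∈ O,
      red ⟨_, h⟩ = Finsupp.linearCombination k (fun i => red ⟨e i, he i⟩)
        (((l i₀)⁻¹ • l).mapRange (rho hO) (rho_zero hO)) ∧
      (((l i₀)⁻¹ • l).mapRange (rho hO) (rho_zero hO)) i₀ = 1 ∧ red ⟨_, h⟩ ≠ 0 := by
  have hl' : ∀ i, algebraMap K F (((l i₀)⁻¹ • l) i) ∈ O := by
    intro i
    rw [Finsupp.smul_apply, smul_eq_mul, ← div_eq_inv_mul]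
    exact hpiv i
  obtain ⟨h, hred⟩ := red_linearCombination hO e he ((l i₀)⁻¹ • l) hl'
  have hEq : Finsupp.linearCombination K e ((l i₀)⁻¹ • l)
      = (l i₀)⁻¹ • Finsupp.linearCombination K e l := map_smul _ _ _
  have h' : (l i₀)⁻¹ • Finsupp.linearCombination K e l ∈ O := hEq ▸ h
  have hsub : (⟨_, h'⟩ : O) = ⟨_, h⟩ := Subtype.ext hEq.symm
  have h1 : (((l i₀)⁻¹ • l).mapRange (rho hO) (rho_zero hO)) i₀ = 1 := by
    rw [Finsupp.mapRange_apply, Finsupp.smul_apply, smul_eq_mul, inv_mul_cancel₀ hi₀, rho_one]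
  refine ⟨h', by rw [hsub, hred], h1, ?_⟩
  rw [hsub, hred]
  intro h0
  have h2 := linearIndependent_iff.1 hind _ h0
  rw [h2] at h1
  simp at h1

/-- A family of elements of `O` with `k`-independent reductions is `K`-independent. -/
theorem linearIndependent_of_red (hO : IsConstRed K k O red)
    (hind : LinearIndependent k (fun i => red ⟨e i, he i⟩)) : LinearIndependent K e := by
  rw [linearIndependent_iff]
  intro l hl
  by_contra hne
  obtain ⟨i₀, hi₀, hpiv⟩ := exists_pivot (O := O) l hne
  obtain ⟨h, -, -, hne0⟩ := exists_red_normalized e he hO hind l i₀ hi₀ hpiv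
  apply hne0
  have : (⟨_, h⟩ : O) = 0 := Subtype.ext (by
    show (l i₀)⁻¹ • Finsupp.linearCombination K e l = 0
    rw [hl, smul_zero])
  rw [this, map_zero]

/-- If a combination lies in `O`, all its coefficients lie in `O`. -/
theorem coeff_mem_of_mem (hO : IsConstRed K k O red)
    (hind : LinearIndependent k (fun i => red ⟨e i, he i⟩))
    (l : ι →₀ K) (h : Finsupp.linearCombination K e l ∈ O) (i : ι) :
    algebraMap K F (l i) ∈ O := by
  by_cases hne : l = 0
  · rw [hne, Finsupp.zero_apply, map_zero]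
    exact O.zero_mem
  obtain ⟨i₀, hi₀, hpiv⟩ := exists_pivot (O := O) l hne
  obtain ⟨hu, -, -, hne0⟩ := exists_red_normalized e he hO hind l i₀ hi₀ hpiv
  have hinv := inv_mem_of_red_ne_zero hO hu hne0
  have hu0 := ne_zero_of_red_ne_zero hu hne0
  have h0 : algebraMap K F (l i₀) ∈ O := by
    have hf0 : Finsupp.linearCombination K e l ≠ 0 := by
      intro hz
      exact hu0 (by rw [hz, smul_zero])
    have ha0 : algebraMap K F (l i₀) ≠ 0 := by
      rw [Ne, map_eq_zero_iff _ (algebraMap K F).injective]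
      exact hi₀
    have : algebraMap K F (l i₀) = Finsupp.linearCombination K e l *
        ((l i₀)⁻¹ • Finsupp.linearCombination K e l)⁻¹ := by
      rw [Algebra.smul_def, mul_inv, map_inv₀, inv_inv]
      field_simp
    rw [this]
    exact O.mul_mem _ _ h hinv
  have : algebraMap K F (l i) = algebraMap K F (l i / l i₀) * algebraMap K F (l i₀) := by
    rw [← map_mul, div_mul_cancel₀ _ hi₀]
  rw [this]
  exact O.mul_mem _ _ (hpiv i) h0

/-- **Gaussian elimination over the valuation ring.**  Every `K`-subspace `M` of the span of a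
family with independent reductions contains `d` elements of `O` with `k`-independent reductions,
for every `d ≤ dim_K M`. -/
theorem exists_reduced_of_le_span (hO : IsConstRed K k O red)
    (hind : LinearIndependent k (fun i => red ⟨e i, he i⟩)) :
    ∀ (d : ℕ) (M : Submodule K F), M ≤ Submodule.span K (Set.range e) →
      d ≤ Module.finrank K M →
      ∃ c : Fin d → F, (∀ j, c j ∈ M) ∧ ∃ hc : ∀ j, c j ∈ O,
        LinearIndependent k (fun j => red ⟨c j, hc j⟩) := by
  intro d
  induction d with
  | zero =>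
    intro M _ _
    exact ⟨Fin.elim0, fun j => j.elim0, fun j => j.elim0, linearIndependent_empty_type⟩
  | succ d ih =>
    intro M hM hd
    classical
    have hpos : 0 < Module.finrank K M := by omega
    have : FiniteDimensional K M := Module.finite_of_finrank_pos hpos
    obtain ⟨⟨m, hmM⟩, hm0⟩ := (Module.finrank_pos_iff_exists_ne_zero (R := K) (M := M)).1 hpos
    have hm0' : m ≠ 0 := fun h => hm0 (Subtype.ext h)
    obtain ⟨l, hl⟩ := Finsupp.mem_span_range_iff_exists_finsupp.1 (hM hmM)
    have hl' : Finsupp.linearCombination K e l = m := by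
      rw [Finsupp.linearCombination_apply]; exact hl
    have hlne : l ≠ 0 := by
      rintro rfl
      apply hm0'
      rw [← hl', map_zero]
    obtain ⟨i₀, hi₀, hpiv⟩ := exists_pivot (O := O) l hlne
    obtain ⟨hu, hured, hu1, hune⟩ := exists_red_normalized e he hO hind l i₀ hi₀ hpiv
    set u : F := (l i₀)⁻¹ • Finsupp.linearCombination K e l with hu_def
    have huM : u ∈ M := by
      rw [hu_def, hl']; exact M.smul_mem _ hmM
    let W₀ : Submodule K F :=
      (Finsupp.supported K K {i | i ≠ i₀}).map (Finsupp.linearCombination K e)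
    have hM'W : M ⊓ W₀ ≤ Submodule.span K (Set.range e) := inf_le_left.trans hM
    have hle : M ≤ (M ⊓ W₀) ⊔ Submodule.span K {u} := by
      intro m' hm'
      obtain ⟨l', hl'2⟩ := Finsupp.mem_span_range_iff_exists_finsupp.1 (hM hm')
      have hl'3 : Finsupp.linearCombination K e l' = m' := by
        rw [Finsupp.linearCombination_apply]; exact hl'2
      have hdecomp : m' = (m' - l' i₀ • u) + l' i₀ • u := by abel
      rw [hdecomp]
      refine Submodule.add_mem_sup ⟨M.sub_mem hm' (M.smul_mem _ huM), ?_⟩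
        (Submodule.smul_mem _ _ (Submodule.mem_span_singleton_self u))
      refine Submodule.mem_map.2 ⟨l' - (l' i₀ * (l i₀)⁻¹) • l, ?_, ?_⟩
      · rw [Finsupp.mem_supported']
        intro i hi
        have hi' : i = i₀ := by simpa using hi
        rw [hi', Finsupp.sub_apply, Finsupp.smul_apply, smul_eq_mul, mul_assoc,
          inv_mul_cancel₀ hi₀, mul_one, sub_self]
      · rw [map_sub, map_smul, hl'3, hu_def, smul_smul]
    have hd' : d ≤ Module.finrank K ↥(M ⊓ W₀) := by
      have h1 : Module.finrank K M ≤ Module.finrank K ↥((M ⊓ W₀) ⊔ Submodule.span K {u}) :=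
        Submodule.finrank_mono hle
      have h2 := Submodule.finrank_add_le_finrank_add_finrank (M ⊓ W₀) (Submodule.span K {u})
      have h3 : Module.finrank K (Submodule.span K {u}) ≤ 1 :=
        (finrank_span_le_card ({u} : Set F)).trans (by simp)
      omega
    obtain ⟨c, hcM, hcO, hcind⟩ := ih (M ⊓ W₀) hM'W hd'
    have hcO' : ∀ j, (Fin.cons u c : Fin (d + 1) → F) j ∈ O := by
      intro j
      refine Fin.cases ?_ (fun j => ?_) j
      · simpa using hu
      · simpa using hcO j
    refine ⟨Fin.cons u c, ?_, hcO', ?_⟩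
    · intro j
      refine Fin.cases ?_ (fun j => ?_) j
      · simpa using huM
      · simpa using (hcM j).1
    have hfun : (fun j => red ⟨(Fin.cons u c : Fin (d + 1) → F) j, hcO' j⟩)
        = Fin.cons (red ⟨u, hu⟩) (fun j => red ⟨c j, hcO j⟩) := by
      funext j
      refine Fin.cases ?_ (fun j => ?_) j
      · simp
      · simp
    rw [hfun, linearIndependent_finCons]
    refine ⟨hcind, ?_⟩
    intro hmem
    let V₀ : Submodule k Fb := (Finsupp.supported k k {i | i ≠ i₀}).map
      (Finsupp.linearCombination k (fun i => red ⟨e i, he i⟩))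
    have hspan : Submodule.span k (Set.range fun j => red ⟨c j, hcO j⟩) ≤ V₀ := by
      rw [Submodule.span_le]
      rintro _ ⟨j, rfl⟩
      obtain ⟨lj, hlj, hlj2⟩ := Submodule.mem_map.1 (hcM j).2
      have hmemO : Finsupp.linearCombination K e lj ∈ O := by rw [hlj2]; exact hcO j
      have hcoef := coeff_mem_of_mem e he hO hind lj hmemO
      obtain ⟨h', hred'⟩ := red_linearCombination hO e he lj hcoef
      refine Submodule.mem_map.2 ⟨lj.mapRange (rho hO) (rho_zero hO), ?_, ?_⟩
      · rw [Finsupp.mem_supported'] at hlj ⊢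
        intro i hi
        rw [Finsupp.mapRange_apply, hlj i hi, rho_zero]
      · rw [← hred']
        exact congrArg red (Subtype.ext hlj2)
    obtain ⟨l₂, hl₂, hl₂'⟩ := Submodule.mem_map.1 (hspan hmem)
    rw [hured] at hl₂'
    have h12 := hind hl₂'
    have h10 : l₂ i₀ = 1 := by rw [h12]; exact hu1
    have h00 : l₂ i₀ = 0 := (Finsupp.mem_supported' _ _).1 hl₂ i₀ (by simp)
    rw [h00] at h10
    exact zero_ne_one h10

end Gauss

/-! ### Arbitrary finite dimensional subspaces: clearing a denominator -/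

/-- If `s * M` lies in the span of a family with independent reductions (`s ≠ 0`), then `M` has
`dim_K M` elements of `O` with `k`-independent reductions. -/
theorem exists_reduced_basis_of_den (hO : IsConstRed K k O red) {ι : Type*} (e : ι → F)
    (he : ∀ i, e i ∈ O) (hind : LinearIndependent k (fun i => red ⟨e i, he i⟩))
    (M : Submodule K F)
    (hden : ∃ s : F, s ≠ 0 ∧ ∀ m ∈ M, s * m ∈ Submodule.span K (Set.range e)) :
    ∃ c : Fin (Module.finrank K M) → F, ∃ hc : ∀ i, c i ∈ O, (∀ i, c i ∈ M) ∧
      LinearIndependent k (fun i => red ⟨c i, hc i⟩) := by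
  obtain ⟨s, hs0, hs⟩ := hden
  obtain ⟨a, ha0, hat, hatred⟩ := hO.gauss s hs0
  set t : F := algebraMap K F a * s with ht
  have ht0 : t ≠ 0 := ne_zero_of_red_ne_zero hat hatred
  have htinv : t⁻¹ ∈ O := inv_mem_of_red_ne_zero hO hat hatred
  have hinj : Function.Injective (LinearMap.mulLeft K t) := by
    intro y z hyz
    exact mul_left_cancel₀ ht0 (by simpa using hyz)
  have hM₁ : M.map (LinearMap.mulLeft K t) ≤ Submodule.span K (Set.range e) := by
    rintro _ ⟨m, hm, rfl⟩
    have : LinearMap.mulLeft K t m = a • (s * m) := by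
      rw [LinearMap.mulLeft_apply, ht, Algebra.smul_def, mul_assoc]
    rw [this]
    exact Submodule.smul_mem _ _ (hs m hm)
  have hfr : Module.finrank K M ≤ Module.finrank K ↥(M.map (LinearMap.mulLeft K t)) :=
    (Submodule.equivMapOfInjective _ hinj M).finrank_eq.le
  obtain ⟨c', hc'M, hc'O, hc'ind⟩ := exists_reduced_of_le_span e he hO hind _ _ hM₁ hfr
  have hcO : ∀ j, t⁻¹ * c' j ∈ O := fun j => O.mul_mem _ _ htinv (hc'O j)
  refine ⟨fun j => t⁻¹ * c' j, hcO, ?_, ?_⟩
  · intro j
    obtain ⟨m, hm, hmj⟩ := hc'M j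
    have : t⁻¹ * c' j = m := by
      rw [← hmj, LinearMap.mulLeft_apply, inv_mul_cancel_left₀ ht0]
    show t⁻¹ * c' j ∈ M
    rw [this]
    exact hm
  · have hr0 : red ⟨t⁻¹, htinv⟩ ≠ 0 := by
      intro h0
      have h1 : (⟨t⁻¹, htinv⟩ : O) * ⟨t, hat⟩ = 1 := Subtype.ext (inv_mul_cancel₀ ht0)
      have h2 := congrArg red h1
      rw [map_mul, h0, zero_mul, map_one] at h2
      exact zero_ne_one h2
    have hinj' : Function.Injective (LinearMap.mulLeft k (red ⟨t⁻¹, htinv⟩)) := by
      intro y z hyz
      exact mul_left_cancel₀ hr0 (by simpa using hyz)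
    have := hc'ind.map' (LinearMap.mulLeft k (red ⟨t⁻¹, htinv⟩)) (LinearMap.ker_eq_bot.2 hinj')
    have hfun : (fun j => red ⟨t⁻¹ * c' j, hcO j⟩)
        = (LinearMap.mulLeft k (red ⟨t⁻¹, htinv⟩)) ∘ fun j => red ⟨c' j, hc'O j⟩ := by
      funext j
      simp only [Function.comp_apply, LinearMap.mulLeft_apply]
      rw [← map_mul]
      rfl
    show LinearIndependent k (fun j => red ⟨t⁻¹ * c' j, hcO j⟩)
    rw [hfun]
    exact this

/-! ### The monomial family `x ^ j * b i` -/

section Poly

variable (K) in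
/-- The `K`-span of the monomials `x ^ j * b i`, i.e. `∑ K[x] b i`. -/
def monoSpan {κ : Type*} (x : F) (b : κ → F) : Submodule K F :=
  Submodule.span K (Set.range fun p : ℕ × κ => x ^ p.1 * b p.2)

variable {κ : Type*} (x : F) (b : κ → F)

theorem mul_x_mem_monoSpan {w : F} (hw : w ∈ monoSpan K x b) : x * w ∈ monoSpan K x b := by
  unfold monoSpan at hw ⊢
  induction hw using Submodule.span_induction with
  | mem y hy =>
    obtain ⟨p, rfl⟩ := hy
    refine Submodule.subset_span ⟨(p.1 + 1, p.2), ?_⟩
    simp only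
    ring
  | zero => rw [mul_zero]; exact Submodule.zero_mem _
  | add y z _ _ hy hz => rw [mul_add]; exact Submodule.add_mem _ hy hz
  | smul a y _ hy => rw [mul_smul_comm]; exact Submodule.smul_mem _ _ hy

theorem aeval_mul_mem_monoSpan (p : K[X]) {w : F} (hw : w ∈ monoSpan K x b) :
    aeval x p * w ∈ monoSpan K x b := by
  induction p using Polynomial.induction_on' with
  | add p q hp hq => rw [map_add, add_mul]; exact Submodule.add_mem _ hp hq
  | monomial n a =>
    rw [aeval_monomial, ← Algebra.smul_def, smul_mul_assoc]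
    refine Submodule.smul_mem _ _ ?_
    induction n with
    | zero => simpa using hw
    | succ n ih => rw [pow_succ', mul_assoc]; exact mul_x_mem_monoSpan x b ih

/-- Every element of the `K(x)`-span of the `b i` has a polynomial denominator. -/
theorem exists_den_of_mem_span {f : F} (hf : f ∈ Submodule.span K⟮x⟯ (Set.range b)) :
    ∃ q : K[X], aeval x q ≠ 0 ∧ aeval x q * f ∈ monoSpan K x b := by
  induction hf using Submodule.span_induction with
  | mem y hy =>
    obtain ⟨i, rfl⟩ := hy
    refine ⟨1, by simp, ?_⟩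
    rw [map_one, one_mul]
    exact Submodule.subset_span ⟨(0, i), by simp⟩
  | zero => exact ⟨1, by simp, by simp⟩
  | add y z _ _ hy hz =>
    obtain ⟨q₁, h₁, h₁'⟩ := hy
    obtain ⟨q₂, h₂, h₂'⟩ := hz
    refine ⟨q₁ * q₂, by rw [map_mul]; exact mul_ne_zero h₁ h₂, ?_⟩
    have : aeval x (q₁ * q₂) * (y + z)
        = aeval x q₂ * (aeval x q₁ * y) + aeval x q₁ * (aeval x q₂ * z) := by
      rw [map_mul]; ring
    rw [this]
    exact Submodule.add_mem _ (aeval_mul_mem_monoSpan x b q₂ h₁')
      (aeval_mul_mem_monoSpan x b q₁ h₂')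
  | smul r y _ hy =>
    obtain ⟨q, hq, hq'⟩ := hy
    obtain ⟨p, q', hr⟩ := (mem_adjoin_simple_iff K (r : F)).1 r.2
    have hsm : r • y = (r : F) * y := rfl
    by_cases hq'0 : aeval x q' = 0
    · have hr0 : (r : F) = 0 := by rw [hr, hq'0, div_zero]
      refine ⟨1, by simp, ?_⟩
      rw [hsm, hr0, zero_mul, mul_zero]
      exact Submodule.zero_mem _
    · refine ⟨q' * q, by rw [map_mul]; exact mul_ne_zero hq'0 hq, ?_⟩
      have : aeval x (q' * q) * (r • y) = aeval x p * (aeval x q * y) := by
        rw [map_mul, hsm, hr]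
        field_simp
      rw [this]
      exact aeval_mul_mem_monoSpan x b p hq'

/-- A finite dimensional `K`-subspace has a common polynomial denominator. -/
theorem exists_common_den (hspan : Submodule.span K⟮x⟯ (Set.range b) = ⊤)
    (M : Submodule K F) [FiniteDimensional K M] :
    ∃ s : F, s ≠ 0 ∧ ∀ m ∈ M, s * m ∈ monoSpan K x b := by
  classical
  have key : ∀ S : Finset F, ∃ q : K[X], aeval x q ≠ 0 ∧
      ∀ m ∈ Submodule.span K (S : Set F), aeval x q * m ∈ monoSpan K x b := by
    intro S
    induction S using Finset.induction_on with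
    | empty =>
      refine ⟨1, by simp, fun m hm => ?_⟩
      have : m = 0 := by simpa using hm
      rw [this, mul_zero]
      exact Submodule.zero_mem _
    | insert a S _ ih =>
      obtain ⟨q₁, h₁, h₁'⟩ := ih
      obtain ⟨q₂, h₂, h₂'⟩ := exists_den_of_mem_span x b (f := a) (by rw [hspan]; trivial)
      refine ⟨q₁ * q₂, by rw [map_mul]; exact mul_ne_zero h₁ h₂, fun m hm => ?_⟩
      rw [Finset.coe_insert, Submodule.mem_span_insert] at hm
      obtain ⟨c, z, hz, rfl⟩ := hm
      have : aeval x (q₁ * q₂) * (c • a + z)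
          = c • (aeval x q₁ * (aeval x q₂ * a)) + aeval x q₂ * (aeval x q₁ * z) := by
        rw [map_mul, Algebra.smul_def, Algebra.smul_def]; ring
      rw [this]
      exact Submodule.add_mem _
        (Submodule.smul_mem _ _ (aeval_mul_mem_monoSpan x b q₁ h₂'))
        (aeval_mul_mem_monoSpan x b q₂ (h₁' z hz))
  obtain ⟨S, hS⟩ := (Submodule.fg_iff_finiteDimensional M).2 inferInstance
  obtain ⟨q, hq, hq'⟩ := key S
  exact ⟨aeval x q, hq, fun m hm => hq' m (by rw [hS]; exact hm)⟩

/-- `K`-independence of the monomials `x ^ j * b i` gives `K(x)`-independence of the `b i`. -/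
theorem linearIndependent_adjoin_of_mono [Fintype κ]
    (hmono : LinearIndependent K (fun p : ℕ × κ => x ^ p.1 * b p.2)) :
    LinearIndependent K⟮x⟯ b := by
  classical
  rw [Fintype.linearIndependent_iff]
  intro g hg
  have hrep : ∀ i, ∃ p q : K[X], aeval x q ≠ 0 ∧ (g i : F) * aeval x q = aeval x p := by
    intro i
    obtain ⟨p, q, hr⟩ := (mem_adjoin_simple_iff K (g i : F)).1 (g i).2
    by_cases hq : aeval x q = 0
    · exact ⟨0, 1, by simp, by rw [hr, hq, div_zero]; simp⟩
    · exact ⟨p, q, hq, by rw [hr]; field_simp⟩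
  choose p q hq hpq using hrep
  set Q : K[X] := ∏ i, q i with hQdef
  have hQ : aeval x Q ≠ 0 := by
    rw [hQdef, map_prod]
    exact Finset.prod_ne_zero_iff.2 fun i _ => hq i
  let P : κ → K[X] := fun i => p i * ∏ i' ∈ Finset.univ.erase i, q i'
  have hP : ∀ i, aeval x (P i) = (g i : F) * aeval x Q := by
    intro i
    have : Q = q i * ∏ i' ∈ Finset.univ.erase i, q i' :=
      (Finset.mul_prod_erase _ _ (Finset.mem_univ i)).symm
    rw [this, map_mul, map_mul, ← hpq i]
    ring
  have hsum : ∑ i, aeval x (P i) * b i = 0 := by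
    have : ∑ i, aeval x (P i) * b i = aeval x Q * ∑ i, g i • b i := by
      rw [Finset.mul_sum]
      refine Finset.sum_congr rfl fun i _ => ?_
      rw [hP i, show g i • b i = (g i : F) * b i from rfl]
      ring
    rw [this, hg, mul_zero]
  set D : ℕ := ∑ i, (P i).natDegree with hDdef
  have hD : ∀ i, (P i).natDegree < D + 1 := fun i =>
    Nat.lt_succ_of_le (Finset.single_le_sum (f := fun i => (P i).natDegree)
      (fun _ _ => Nat.zero_le _) (Finset.mem_univ i))
  have hcomb : ∑ pr ∈ Finset.range (D + 1) ×ˢ (Finset.univ : Finset κ),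
      (P pr.2).coeff pr.1 • (x ^ pr.1 * b pr.2) = 0 := by
    rw [Finset.sum_product_right, ← hsum]
    refine Finset.sum_congr rfl fun i _ => ?_
    rw [aeval_eq_sum_range' (hD i), Finset.sum_mul]
    refine Finset.sum_congr rfl fun j _ => ?_
    rw [smul_mul_assoc]
  have hzero := linearIndependent_iff'.1 hmono _ _ hcomb
  have hP0 : ∀ i, P i = 0 := by
    intro i
    ext j
    rw [coeff_zero]
    by_cases hj : j < D + 1
    · exact hzero (j, i) (by simp [hj])
    · exact coeff_eq_zero_of_natDegree_lt (lt_of_lt_of_le (hD i) (not_lt.1 hj))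
  intro i
  have h0 : (g i : F) * aeval x Q = 0 := by rw [← hP i, hP0 i, map_zero]
  have h1 : (g i : F) = 0 := (mul_eq_zero.1 h0).resolve_right hQ
  exact Subtype.ext h1

end Poly

/-! ### The lattice hypothesis from the degree equality -/

/-- **`hlat`** of `exists_placeReduction` (helper1601): if `x ∈ O` has transcendental reduction
and `[F : K(x)] ≤ [Fb : k(red x)] < ∞`, every finite dimensional `K`-subspace `M` of `F` has a
`K`-basis of elements of `O` whose reductions are `k`-linearly independent. -/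
theorem hlat_of_finrank_le (hO : IsConstRed K k O red) (x : F) (hx : x ∈ O)
    (hxt : Transcendental k (red ⟨x, hx⟩))
    [FiniteDimensional K⟮x⟯ F] [FiniteDimensional k⟮red ⟨x, hx⟩⟯ Fb]
    (hdeg : Module.finrank K⟮x⟯ F ≤ Module.finrank k⟮red ⟨x, hx⟩⟯ Fb) :
    ∀ M : Submodule K F, FiniteDimensional K M →
      ∃ b : Fin (Module.finrank K M) → F, ∃ hb : ∀ i, b i ∈ O, (∀ i, b i ∈ M) ∧
        LinearIndependent k (fun i => red ⟨b i, hb i⟩) := by
  classical
  intro M hM
  set xb : Fb := red ⟨x, hx⟩ with hxb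
  set n := Module.finrank k⟮xb⟯ Fb with hn
  let B : Module.Basis (Fin n) k⟮xb⟯ Fb := Module.finBasis k⟮xb⟯ Fb
  choose c hc using fun i => hO.surj (B i)
  have hpow : LinearIndependent k (fun j : ℕ => (AdjoinSimple.gen k xb) ^ j) := by
    apply LinearIndependent.of_comp (k⟮xb⟯.val.toLinearMap)
    have h1 : LinearIndependent k ((aeval xb).toLinearMap ∘ (Polynomial.basisMonomials k)) :=
      (Polynomial.basisMonomials k).linearIndependent.map' _
        (LinearMap.ker_eq_bot.2 (transcendental_iff_injective.1 hxt))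
    have hfun : (k⟮xb⟯.val.toLinearMap ∘ fun j : ℕ => (AdjoinSimple.gen k xb) ^ j)
        = (aeval xb).toLinearMap ∘ (Polynomial.basisMonomials k) := by
      funext j
      simp [Polynomial.coe_basisMonomials]
    rw [hfun]
    exact h1
  have hprod : LinearIndependent k
      (fun p : ℕ × Fin n => (AdjoinSimple.gen k xb) ^ p.1 • B p.2) :=
    linearIndependent_smul hpow B.linearIndependent
  let e : ℕ × Fin n → F := fun p => x ^ p.1 * (c p.2 : F)
  have he : ∀ p, e p ∈ O := fun p => O.mul_mem _ _ (O.pow_mem hx _) (c p.2).2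
  have hered : ∀ p, red ⟨e p, he p⟩ = (AdjoinSimple.gen k xb) ^ p.1 • B p.2 := by
    intro p
    have : (⟨e p, he p⟩ : O) = ⟨x, hx⟩ ^ p.1 * c p.2 := Subtype.ext rfl
    rw [this, map_mul, map_pow, hc]
    rfl
  have hind : LinearIndependent k (fun p => red ⟨e p, he p⟩) := by
    convert hprod using 1
    funext p
    exact hered p
  have hK : LinearIndependent K e := linearIndependent_of_red e he hO hind
  have hadj : LinearIndependent K⟮x⟯ (fun i => (c i : F)) :=
    linearIndependent_adjoin_of_mono x _ hK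
  have hcard : Fintype.card (Fin n) = Module.finrank K⟮x⟯ F := by
    have := hadj.fintype_card_le_finrank
    rw [Fintype.card_fin] at this ⊢
    omega
  have hspan := hadj.span_eq_top_of_card_eq_finrank' hcard
  have hden := exists_common_den x (fun i => (c i : F)) hspan M
  exact exists_reduced_basis_of_den hO e he hind M hden

end Fermat.Agent.RIN.LatticeGauss1014
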