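import Fermat.Agent.RIN.Rho

/-!
# Abstract good reduction: existence of a place reduction with conservation of divisors
-/

set_option autoImplicit false
set_option linter.unusedSectionVars false

namespace Fermat.Agent.RIN

open AlgebraicCurve

variable {K F k Fb : Type*} [Field K] [Field F] [Algebra K F] [Field k] [Field Fb] [Algebra k Fb]
variable {O : ValuationSubring F} {red : O →+* Fb}

/-- an effective divisor of degree one is a single place (all places of degree one) -/
theorem exists_eq_single_of_degree_one (hdeg : ∀ Q : Place k Fb, Q.deg = 1) {X : Divisor k Fb}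
    (hX : ∀ Q, 0 ≤ X Q) (h1 : Divisor.degree X = 1) : ∃ Q, X = Finsupp.single Q 1 := by
  classical
  have hne : X ≠ 0 := by
    intro h0; rw [h0, map_zero] at h1; exact zero_ne_one h1
  obtain ⟨Q, hQ⟩ : ∃ Q, X Q ≠ 0 := by
    by_contra hall
    push Not at hall
    exact hne (Finsupp.ext hall)
  refine ⟨Q, ?_⟩
  have hQ1 : 1 ≤ X Q := by have := hX Q; omega
  symm
  apply eq_of_le_of_degree_le hdeg
  · intro Q'
    by_cases h : Q' = Q
    · subst h; rw [Finsupp.single_eq_same]; exact hQ1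
    · rw [Finsupp.single_eq_of_ne h]; exact hX Q'
  · rw [h1, degree_single_one hdeg]

section

variable [Infinite k] [Nonempty (Place K F)] [Nonempty (Place k Fb)]
  [HasPrincipalDivisors K F] [HasPrincipalDivisors k Fb]
variable {hO : IsConstRed K k O red} {γ : ℤ}

/-- **Abstract good reduction**: there is a degree-preserving reduction map on places such that
reductions of functions in `L(D)` lie in `L(r_* D)`. -/
theorem exists_reduction_bound (H : Hyp hO γ) :
    ∃ r : Place K F → Place k Fb, (∀ P, (r P).deg = P.deg) ∧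
      ∀ (D : Divisor K F) (f : F), f ∈ riemannRochSpace D → ∀ hf : f ∈ O, red ⟨f, hf⟩ ≠ 0 →
        ∀ Q, -(Finsupp.mapDomain r D) Q ≤ Q.ord (red ⟨f, hf⟩) := by
  classical
  obtain ⟨c₁, hc₁⟩ := exists_degree_rho_eq H
  obtain ⟨P₀⟩ := ‹Nonempty (Place K F)›
  set n₀ : ℕ := (max c₁ 0).toNat with hn₀
  have hn₀' : c₁ ≤ (n₀ : ℤ) := by
    rw [hn₀, Int.toNat_of_nonneg (le_max_right _ _)]; exact le_max_left _ _
  set E₀ : Divisor K F := n₀ • Finsupp.single P₀ (1 : ℤ) with hE₀
  have hsingle_nn : ∀ (P P' : Place K F), (0 : ℤ) ≤ (Finsupp.single P (1 : ℤ)) P' := by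
    intro P P'
    by_cases h : P' = P
    · subst h; simp
    · rw [Finsupp.single_eq_of_ne h]
  have hE₀nn : ∀ P, 0 ≤ E₀ P := fun P => by
    rw [hE₀, Finsupp.smul_apply, nsmul_eq_mul]
    exact mul_nonneg (Int.natCast_nonneg _) (hsingle_nn P₀ P)
  have hE₀deg : Divisor.degree E₀ = n₀ := by
    rw [hE₀, map_nsmul, degree_single_one H.degF, nsmul_eq_mul, mul_one]
  -- the step: one more point
  have hstep : ∀ P : Place K F, ∃ Q : Place k Fb,
      rho hO (E₀ + Finsupp.single P 1) = rho hO E₀ + Finsupp.single Q 1 := by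
    intro P
    have hnn : ∀ P', 0 ≤ (E₀ + Finsupp.single P (1 : ℤ)) P' := fun P' => by
      rw [Finsupp.add_apply]; exact add_nonneg (hE₀nn P') (hsingle_nn P P')
    have hle : ∀ Q, rho hO E₀ Q ≤ rho hO (E₀ + Finsupp.single P 1) Q :=
      rho_mono H hE₀nn fun P' => by
        rw [Finsupp.add_apply]; have := hsingle_nn P P'; omega
    have hdeg1 : Divisor.degree (rho hO (E₀ + Finsupp.single P 1) - rho hO E₀) = 1 := by
      rw [map_sub, hc₁ _ hnn (by rw [map_add, hE₀deg, degree_single_one H.degF]; omega),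
        hc₁ _ hE₀nn (by rw [hE₀deg]; exact hn₀'), map_add, degree_single_one H.degF]
      ring
    obtain ⟨Q, hQ⟩ := exists_eq_single_of_degree_one H.degFb
      (X := rho hO (E₀ + Finsupp.single P 1) - rho hO E₀)
      (fun Q => by rw [Finsupp.sub_apply]; exact sub_nonneg.mpr (hle Q)) hdeg1
    exact ⟨Q, by rw [← hQ]; abel⟩
  choose r hr using hstep
  have hrdeg : ∀ P, (r P).deg = P.deg := fun P => by rw [H.degF, H.degFb]
  -- the property `Pr X`
  let Pr : Divisor K F → Prop := fun X =>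
    (∀ P, 0 ≤ X P) ∧ rho hO (E₀ + X) = rho hO E₀ + Finsupp.mapDomain r X
  have hPr0 : Pr 0 := ⟨fun P => le_rfl, by rw [add_zero, Finsupp.mapDomain_zero, add_zero]⟩
  have hPradd : ∀ X Y, Pr X → Pr Y → Pr (X + Y) := by
    rintro X Y ⟨hX, hXe⟩ ⟨hY, hYe⟩
    refine ⟨fun P => by rw [Finsupp.add_apply]; exact add_nonneg (hX P) (hY P), ?_⟩
    have hEX : ∀ P, 0 ≤ (E₀ + X) P := fun P => by
      rw [Finsupp.add_apply]; exact add_nonneg (hE₀nn P) (hX P)
    have hEY : ∀ P, 0 ≤ (E₀ + Y) P := fun P => by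
      rw [Finsupp.add_apply]; exact add_nonneg (hE₀nn P) (hY P)
    have hEXY : ∀ P, 0 ≤ (E₀ + (X + Y)) P := fun P => by
      rw [Finsupp.add_apply, Finsupp.add_apply]
      exact add_nonneg (hE₀nn P) (add_nonneg (hX P) (hY P))
    have hdX : c₁ ≤ Divisor.degree (E₀ + X) := by
      rw [map_add, hE₀deg]; have := degree_nonneg hX; omega
    have hdY : c₁ ≤ Divisor.degree (E₀ + Y) := by
      rw [map_add, hE₀deg]; have := degree_nonneg hY; omega
    have hdXY : c₁ ≤ Divisor.degree (E₀ + (X + Y)) := by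
      rw [map_add, map_add, hE₀deg]
      have := degree_nonneg hX; have := degree_nonneg hY; omega
    have hdE : c₁ ≤ Divisor.degree E₀ := by rw [hE₀deg]; exact hn₀'
    have e1 : rho hO ((E₀ + (X + Y)) + E₀) = rho hO (E₀ + (X + Y)) + rho hO E₀ :=
      rho_add H hc₁ hEXY hE₀nn hdXY hdE
    have e2 : rho hO ((E₀ + X) + (E₀ + Y)) = rho hO (E₀ + X) + rho hO (E₀ + Y) :=
      rho_add H hc₁ hEX hEY hdX hdY
    have e3 : (E₀ + (X + Y)) + E₀ = (E₀ + X) + (E₀ + Y) := by abel
    rw [e3, e2, hXe, hYe] at e1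
    rw [Finsupp.mapDomain_add]
    have e4 : rho hO (E₀ + (X + Y)) + rho hO E₀
        = (rho hO E₀ + (Finsupp.mapDomain r X + Finsupp.mapDomain r Y)) + rho hO E₀ := by
      rw [← e1]; abel
    exact add_right_cancel e4
  have hPrsingle : ∀ (P : Place K F) (n : ℕ), Pr (Finsupp.single P (n : ℤ)) := by
    intro P n
    induction n with
    | zero => simpa using hPr0
    | succ n ih =>
      have e : Finsupp.single P ((n + 1 : ℕ) : ℤ)
          = Finsupp.single P (n : ℤ) + Finsupp.single P (1 : ℤ) := by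
        rw [← Finsupp.single_add]; push_cast; rfl
      rw [e]
      refine hPradd _ _ ih ⟨hsingle_nn P, ?_⟩
      rw [hr P, Finsupp.mapDomain_single]
  have hPrall : ∀ X : Divisor K F, (∀ P, 0 ≤ X P) → Pr X := by
    intro X hX
    -- decompose over the support
    have hXsum : X = ∑ P ∈ X.support, Finsupp.single P (X P) := by
      conv_lhs => rw [← Finsupp.sum_single X]
      rfl
    rw [hXsum]
    have : ∀ s : Finset (Place K F), Pr (∑ P ∈ s, Finsupp.single P (X P)) := by
      intro s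
      induction s using Finset.induction_on with
      | empty => simpa using hPr0
      | insert a s ha ih =>
        rw [Finset.sum_insert ha]
        refine hPradd _ _ ?_ ih
        have := hPrsingle a (X a).toNat
        rwa [Int.toNat_of_nonneg (hX a)] at this
    exact this _
  have hR7 : ∀ D : Divisor K F, (∀ P, 0 ≤ D P) → c₁ ≤ Divisor.degree D →
      rho hO D = Finsupp.mapDomain r D := by
    intro D hD hdD
    have h1 := (hPrall D hD).2
    have h2 := rho_add H hc₁ hE₀nn hD (by rw [hE₀deg]; exact hn₀') hdD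
    rw [h2] at h1
    exact add_left_cancel h1
  refine ⟨r, hrdeg, ?_⟩
  intro D f hfL hf hne Q
  -- D = D₁ - D₂ with D₂ := D⁻ + E₀, D₁ := D + D₂
  set Dm : Divisor K F := D.mapRange (fun n => max (-n) 0) (by simp) with hDm
  have hDm_apply : ∀ P, Dm P = max (-(D P)) 0 := fun P => by
    rw [hDm, Finsupp.mapRange_apply]
  set D₂ : Divisor K F := Dm + E₀ with hD₂
  set D₁ : Divisor K F := D + D₂ with hD₁
  have hD₂nn : ∀ P, 0 ≤ D₂ P := fun P => by
    rw [hD₂, Finsupp.add_apply, hDm_apply]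
    exact add_nonneg (le_max_right _ _) (hE₀nn P)
  have hD₁nn : ∀ P, 0 ≤ D₁ P := fun P => by
    rw [hD₁, hD₂, Finsupp.add_apply, Finsupp.add_apply, hDm_apply]
    have := hE₀nn P
    have := le_max_left (-(D P)) 0
    omega
  have hD₂deg : c₁ ≤ Divisor.degree D₂ := by
    have : Divisor.degree E₀ ≤ Divisor.degree D₂ := degree_mono fun P => by
      rw [hD₂, Finsupp.add_apply, hDm_apply]
      have := le_max_right (-(D P)) 0
      omega
    rw [hE₀deg] at this
    omega
  have hD₁deg : c₁ ≤ Divisor.degree D₁ := by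
    have : Divisor.degree E₀ ≤ Divisor.degree D₁ := degree_mono fun P => by
      rw [hD₁, hD₂, Finsupp.add_apply, Finsupp.add_apply, hDm_apply]
      have := le_max_left (-(D P)) 0
      omega
    rw [hE₀deg] at this
    omega
  obtain ⟨hb, hhb, hhb0, hord⟩ := (isTight_rho H hD₂nn).2 Q
  obtain ⟨h, hhL, hh, rfl⟩ := hhb
  have hfh : f * h ∈ riemannRochSpace D₁ := mul_mem_L hfL hhL
  have hmem := red_mem_redSpace hO hfh (O.mul_mem _ _ hf hh)
  have e : (⟨f * h, O.mul_mem _ _ hf hh⟩ : O) = ⟨f, hf⟩ * ⟨h, hh⟩ := rfl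
  rw [e, map_mul] at hmem
  have hbound := (isTight_rho H hD₁nn).1 _ hmem (mul_ne_zero hne hhb0) Q
  rw [Q.ord_mul hne hhb0, hord, hR7 D₁ hD₁nn hD₁deg, hR7 D₂ hD₂nn hD₂deg] at hbound
  have e5 : Finsupp.mapDomain r D₁ = Finsupp.mapDomain r D + Finsupp.mapDomain r D₂ := by
    rw [hD₁, Finsupp.mapDomain_add]
  rw [e5, Finsupp.add_apply] at hbound
  omega

/-- **Abstract good reduction, conservation form** (the shape of the Prelude's
`IsPlaceReductionAlong`). -/
theorem exists_placeReduction_of_hyp (H : Hyp hO γ) :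
    ∃ r : Place K F → Place k Fb, (∀ P, (r P).deg = P.deg) ∧
      ∀ (y : F) (hy : y ∈ O), red ⟨y, hy⟩ ≠ 0 → ∀ D : Divisor K F, (∀ P, D P = P.ord y) →
        ∀ Q, Finsupp.mapDomain r D Q = Q.ord (red ⟨y, hy⟩) := by
  obtain ⟨r, hrdeg, hr⟩ := exists_reduction_bound H
  refine ⟨r, hrdeg, ?_⟩
  intro y hy hne D hD Q
  have hy0 : y ≠ 0 := by
    rintro rfl
    apply hne
    have : (⟨0, hy⟩ : O) = 0 := rfl
    rw [this, map_zero]
  have hyL : y ∈ riemannRochSpace (-D) := by
    rw [mem_riemannRochSpace_iff]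
    intro v
    right
    rw [Finsupp.neg_apply, neg_neg, hD v]
  have hle : ∀ Q, (Finsupp.mapDomain r D) Q ≤ (divOf k (red ⟨y, hy⟩)) Q := by
    intro Q
    have := hr (-D) y hyL hy hne Q
    have hneg : Finsupp.mapDomain r (-D) = -Finsupp.mapDomain r D := by
      rw [← Finsupp.mapDomain.addMonoidHom_apply, map_neg, Finsupp.mapDomain.addMonoidHom_apply]
    rw [hneg, Finsupp.neg_apply, neg_neg] at this
    rw [divOf_apply]
    exact this
  have hDdiv : D = divOf K y := by
    ext P; rw [hD P, divOf_apply]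
  have hdeg : Divisor.degree (divOf k (red ⟨y, hy⟩)) ≤
      Divisor.degree (Finsupp.mapDomain r D) := by
    rw [degree_divOf, degree_mapDomain r hrdeg, hDdiv, degree_divOf]
  have heq := eq_of_le_of_degree_le H.degFb hle hdeg
  rw [heq, divOf_apply]

end

/-- **Abstract good reduction**, flat statement. -/
theorem exists_placeReduction
    (O : ValuationSubring F) (red : O →+* Fb) (hO : IsConstRed K k O red)
    [Infinite k] [Nonempty (Place K F)] [Nonempty (Place k Fb)]
    [HasPrincipalDivisors K F] [HasPrincipalDivisors k Fb]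
    (hdegF : ∀ P : Place K F, P.deg = 1) (hdegFb : ∀ Q : Place k Fb, Q.deg = 1)
    (γ : ℤ)
    (hRF : ∀ D : Divisor K F,
      Divisor.degree D + 1 - γ ≤ (Module.finrank K (riemannRochSpace D) : ℤ))
    (hRFb : ∀ E : Divisor k Fb,
      Divisor.degree E + 1 - γ ≤ (Module.finrank k (riemannRochSpace E) : ℤ))
    (hRFb' : ∃ c : ℤ, ∀ E : Divisor k Fb, c ≤ Divisor.degree E →
      (Module.finrank k (riemannRochSpace E) : ℤ) ≤ Divisor.degree E + 1 - γ)
    (hlat : ∀ M : Submodule K F, FiniteDimensional K M →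
      ∃ b : Fin (Module.finrank K M) → F, ∃ hb : ∀ i, b i ∈ O, (∀ i, b i ∈ M) ∧
        LinearIndependent k (fun i => red ⟨b i, hb i⟩)) :
    ∃ r : Place K F → Place k Fb, (∀ P, (r P).deg = P.deg) ∧
      ∀ (y : F) (hy : y ∈ O), red ⟨y, hy⟩ ≠ 0 → ∀ D : Divisor K F, (∀ P, D P = P.ord y) →
        ∀ Q, Finsupp.mapDomain r D Q = Q.ord (red ⟨y, hy⟩) :=
  exists_placeReduction_of_hyp (hO := hO) (γ := γ) ⟨hdegF, hdegFb, hRF, hRFb, hRFb', hlat⟩

end Fermat.Agent.RIN
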