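import Fermat.Agent.RIN.Lattice

/-!
# The pole bound: reductions of functions in `L(D)` have pole divisors of degree `≤ deg D`
-/

set_option autoImplicit false

namespace Fermat.Agent.RIN

open AlgebraicCurve

section MulStep

variable {k Fb : Type*} [Field k] [Field Fb] [Algebra k Fb]

local notation "Lb" => riemannRochSpace (K := k) (F := Fb)

/-- multiplication by `g` fills up `L((n+2)E)` from `L((n+1)E)` when dimensions grow linearly;
`E` the pole divisor of `g`. -/
theorem L_succ_le_sup_mul [HasPrincipalDivisors k Fb] [Nonempty (Place k Fb)]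
    (hdeg : ∀ Q : Place k Fb, Q.deg = 1) (g : Fb) (hg : g ≠ 0) (n : ℕ)
    (hdim : Module.finrank k (Lb ((n + 2) • poleDiv k g)) + Module.finrank k (Lb (n • poleDiv k g))
      ≤ 2 * Module.finrank k (Lb ((n + 1) • poleDiv k g))) :
    Lb ((n + 2) • poleDiv k g) ≤
      Lb ((n + 1) • poleDiv k g) ⊔ (Lb ((n + 1) • poleDiv k g)).map (LinearMap.mulLeft k g) := by
  classical
  set E := poleDiv k g with hE
  have hfinV : FiniteDimensional k (Lb ((n + 1) • E)) := L_finite hdeg _
  have hfinU : FiniteDimensional k (Lb (n • E)) := L_finite hdeg _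
  have hfinW : FiniteDimensional k (Lb ((n + 2) • E)) := L_finite hdeg _
  have hEnn : ∀ Q, 0 ≤ E Q := poleDiv_nonneg g
  have hsm : ∀ (m : ℕ) (Q : Place k Fb), (m • E) Q = (m : ℤ) * E Q := fun m Q => by
    rw [Finsupp.smul_apply, nsmul_eq_mul]
  have hinj : Function.Injective (LinearMap.mulLeft k g) := fun x y hxy =>
    mul_left_cancel₀ hg hxy
  -- V ≤ W
  have h1 : Lb ((n + 1) • E) ≤ Lb ((n + 2) • E) := L_mono fun Q => by
    rw [hsm, hsm]
    have := hEnn Q
    push_cast
    nlinarith
  -- gV ≤ W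
  have h2 : (Lb ((n + 1) • E)).map (LinearMap.mulLeft k g) ≤ Lb ((n + 2) • E) := by
    rintro _ ⟨b, hb, rfl⟩
    have := mul_mem_L (mem_L_poleDiv (K := k) g) hb
    have e : poleDiv k g + (n + 1) • E = (n + 2) • E := by
      rw [← hE, show n + 2 = (n + 1) + 1 by ring, add_smul (n + 1) 1 E, one_smul, add_comm]
    rw [e] at this
    exact this
  -- V ⊓ gV ≤ gU
  have h3 : Lb ((n + 1) • E) ⊓ (Lb ((n + 1) • E)).map (LinearMap.mulLeft k g) ≤
      (Lb (n • E)).map (LinearMap.mulLeft k g) := by
    rintro x ⟨hxV, b, hb, rfl⟩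
    refine ⟨b, ?_, rfl⟩
    have hb' := hb
    rw [SetLike.mem_coe, mem_riemannRochSpace_iff] at hb'
    have hxV' : g * b ∈ Lb ((n + 1) • E) := hxV
    rw [mem_riemannRochSpace_iff] at hxV'
    rw [SetLike.mem_coe, mem_riemannRochSpace_iff]
    intro v
    by_cases hb0 : b = 0
    · exact Or.inl hb0
    right
    have hx0 : g * b ≠ 0 := mul_ne_zero hg hb0
    have hx := (hxV' v).resolve_left hx0
    have hbv := (hb' v).resolve_left hb0
    rw [v.ord_mul hg hb0, hsm] at hx
    rw [hsm] at hbv ⊢
    have hEv : E v = max (-(v.ord g)) 0 := poleDiv_apply g v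
    push_cast at hx hbv
    rw [add_mul, one_mul] at hx hbv
    set t := (n : ℤ) * E v
    rcases max_cases (-(v.ord g)) 0 with ⟨h, h'⟩ | ⟨h, h'⟩
    · rw [h] at hEv; omega
    · rw [h] at hEv; rw [hEv] at hx hbv; omega
  have hfinS : FiniteDimensional k
      ↥(Lb ((n + 1) • E) ⊔ (Lb ((n + 1) • E)).map (LinearMap.mulLeft k g)) := inferInstance
  have hsup : Lb ((n + 1) • E) ⊔ (Lb ((n + 1) • E)).map (LinearMap.mulLeft k g)
      ≤ Lb ((n + 2) • E) := sup_le h1 h2
  have hdimeq := Submodule.finrank_sup_add_finrank_inf_eq (Lb ((n + 1) • E))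
    ((Lb ((n + 1) • E)).map (LinearMap.mulLeft k g))
  have hmapV : Module.finrank k ((Lb ((n + 1) • E)).map (LinearMap.mulLeft k g))
      = Module.finrank k (Lb ((n + 1) • E)) :=
    (Submodule.equivMapOfInjective _ hinj _).finrank_eq.symm
  have hmapU : Module.finrank k ((Lb (n • E)).map (LinearMap.mulLeft k g))
      ≤ Module.finrank k (Lb (n • E)) := Submodule.finrank_map_le _ _
  have hinf : Module.finrank k
      ↥(Lb ((n + 1) • E) ⊓ (Lb ((n + 1) • E)).map (LinearMap.mulLeft k g))
      ≤ Module.finrank k ((Lb (n • E)).map (LinearMap.mulLeft k g)) :=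
    Submodule.finrank_mono h3
  have hfin : Module.finrank k (Lb ((n + 2) • E)) ≤ Module.finrank k
      ↥(Lb ((n + 1) • E) ⊔ (Lb ((n + 1) • E)).map (LinearMap.mulLeft k g)) := by
    omega
  exact (Submodule.eq_of_le_of_finrank_le hsup hfin).ge

end MulStep

section PoleBound

variable {K F k Fb : Type*} [Field K] [Field F] [Algebra K F] [Field k] [Field Fb] [Algebra k Fb]
variable {O : ValuationSubring F} {red : O →+* Fb}

theorem pole_bound (hO : IsConstRed K k O red)
    [Nonempty (Place K F)] [Nonempty (Place k Fb)]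
    [HasPrincipalDivisors K F] [HasPrincipalDivisors k Fb]
    (hdegF : ∀ P : Place K F, P.deg = 1) (hdegFb : ∀ Q : Place k Fb, Q.deg = 1)
    (γ : ℤ)
    (hRFb : ∀ E : Divisor k Fb,
      Divisor.degree E + 1 - γ ≤ (Module.finrank k (riemannRochSpace E) : ℤ))
    (hRFb' : ∃ c : ℤ, ∀ E : Divisor k Fb, c ≤ Divisor.degree E →
      (Module.finrank k (riemannRochSpace E) : ℤ) ≤ Divisor.degree E + 1 - γ)
    {D : Divisor K F} (hD : ∀ P, 0 ≤ D P) {f : F} (hfD : f ∈ riemannRochSpace D)
    (hf : f ∈ O) (hne : red ⟨f, hf⟩ ≠ 0) :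
    Divisor.degree (poleDiv k (red ⟨f, hf⟩)) ≤ Divisor.degree D := by
  classical
  by_contra hlt
  push Not at hlt
  set g := red ⟨f, hf⟩ with hg
  set E := poleDiv k g with hE
  set e := Divisor.degree E with he
  set d := Divisor.degree D with hd
  have hd0 : 0 ≤ d := degree_nonneg hD
  have hEnn : ∀ Q, 0 ≤ E Q := poleDiv_nonneg g
  obtain ⟨c, hc⟩ := hRFb'
  have hcn : c ≤ (c.toNat : ℤ) := Int.self_le_toNat c
  have hdegm : ∀ m : ℕ, Divisor.degree (m • E) = (m : ℤ) * e := fun m => by
    rw [map_nsmul, nsmul_eq_mul]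
  -- dimensions of L(mE) for m ≥ c.toNat
  have hdimE : ∀ m : ℕ, c.toNat ≤ m →
      (Module.finrank k (riemannRochSpace (m • E)) : ℤ) = (m : ℤ) * e + 1 - γ := by
    intro m hm
    have h1 := hRFb (m • E)
    have hm' : (c.toNat : ℤ) ≤ (m : ℤ) := by exact_mod_cast hm
    have h2 := hc (m • E) (by rw [hdegm]; nlinarith)
    rw [hdegm] at h1 h2
    omega
  have hA : ∀ n : ℕ, c.toNat ≤ n →
      riemannRochSpace ((n + 2) • E) ≤ riemannRochSpace ((n + 1) • E) ⊔
        (riemannRochSpace ((n + 1) • E)).map (LinearMap.mulLeft k g) := by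
    intro n hn
    apply L_succ_le_sup_mul hdegFb g hne n
    have h0 := hdimE n hn
    have h1 := hdimE (n + 1) (by omega)
    have h2 := hdimE (n + 2) (by omega)
    push_cast at h1 h2
    have : ((Module.finrank k (riemannRochSpace ((n + 2) • E)) : ℤ)
        + (Module.finrank k (riemannRochSpace (n • E)) : ℤ))
        ≤ 2 * (Module.finrank k (riemannRochSpace ((n + 1) • E)) : ℤ) := by
      rw [h0, h1, h2]; ring_nf; exact le_rfl
    exact_mod_cast this
  -- a finite spanning set of L(m₀ E) and lifts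
  set m₀ : ℕ := c.toNat + 1 with hm₀
  have hfin0 : FiniteDimensional k (riemannRochSpace (K := k) (m₀ • E)) := L_finite hdegFb _
  obtain ⟨T, hT⟩ := (Submodule.fg_iff_finiteDimensional _).mpr hfin0
  let u : Fb → O := Function.surjInv hO.surj
  have hu : ∀ t, red (u t) = t := Function.surjInv_eq hO.surj
  set Dg : Divisor K F := ∑ t ∈ T, poleDiv K ((u t : O) : F) with hDg
  have hDg_apply : ∀ P, Dg P = ∑ t ∈ T, poleDiv K ((u t : O) : F) P := fun P => by
    rw [hDg, Finsupp.finsetSum_apply]
  have hDgnn : ∀ P, 0 ≤ Dg P := fun P => by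
    rw [hDg_apply]; exact Finset.sum_nonneg fun t _ => poleDiv_nonneg _ P
  have huL : ∀ t ∈ T, ((u t : O) : F) ∈ riemannRochSpace Dg := by
    intro t ht
    apply mem_L_of_poleDiv_le
    intro P
    rw [hDg_apply]
    exact Finset.single_le_sum (f := fun t => poleDiv K ((u t : O) : F) P)
      (fun t _ => poleDiv_nonneg _ P) ht
  have hB : ∀ i : ℕ, riemannRochSpace ((m₀ + i) • E) ≤
      redSpace hO (riemannRochSpace (i • D + Dg)) := by
    intro i
    induction i with
    | zero =>
      rw [add_zero, zero_smul, zero_add, ← hT, Submodule.span_le]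
      intro t ht
      have := red_mem_redSpace hO (huL t ht) (u t).2
      rw [Subtype.coe_eta, hu] at this
      exact this
    | succ i ih =>
      have e1 : m₀ + (i + 1) = (c.toNat + i) + 2 := by omega
      have e2 : m₀ + i = (c.toNat + i) + 1 := by omega
      rw [e1]
      refine (hA (c.toNat + i) (by omega)).trans ?_
      rw [← e2]
      have hmono : redSpace hO (riemannRochSpace (i • D + Dg)) ≤
          redSpace hO (riemannRochSpace ((i + 1) • D + Dg)) :=
        redSpace_mono hO (L_mono fun P => by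
          rw [Finsupp.add_apply, Finsupp.add_apply, add_smul, one_smul, Finsupp.add_apply]
          have := hD P
          omega)
      apply sup_le (ih.trans hmono)
      rintro _ ⟨b, hb, rfl⟩
      obtain ⟨w, hwL, hw, hwb⟩ := ih hb
      have hfw : f * w ∈ riemannRochSpace ((i + 1) • D + Dg) := by
        have := mul_mem_L hfD hwL
        have e3 : D + (i • D + Dg) = (i + 1) • D + Dg := by
          rw [add_smul, one_smul]; abel
        rwa [e3] at this
      have := red_mem_redSpace hO hfw (O.mul_mem _ _ hf hw)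
      have e4 : (⟨f * w, O.mul_mem _ _ hf hw⟩ : O) = ⟨f, hf⟩ * ⟨w, hw⟩ := rfl
      rw [e4, map_mul, hwb] at this
      exact this
  -- conclusion by counting
  have hcount : ∀ i : ℕ, ((m₀ + i : ℕ) : ℤ) * e + 1 - γ ≤ (i : ℤ) * d + Divisor.degree Dg + 1 := by
    intro i
    have hfinL : FiniteDimensional K (riemannRochSpace (K := K) (i • D + Dg)) :=
      L_finite hdegF _
    obtain ⟨hfinR, hleR⟩ := finrank_redSpace_le hO (riemannRochSpace (i • D + Dg))
    have h1 := hdimE (m₀ + i) (by omega)
    have h2 : Module.finrank k (riemannRochSpace (K := k) ((m₀ + i) • E)) ≤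
        Module.finrank k (redSpace hO (riemannRochSpace (i • D + Dg))) :=
      Submodule.finrank_mono (hB i)
    have h3 : (Module.finrank K (riemannRochSpace (K := K) (i • D + Dg)) : ℤ) ≤
        Divisor.degree (i • D + Dg) + 1 :=
      finrank_L_le hdegF fun P => by
        rw [Finsupp.add_apply, Finsupp.smul_apply, nsmul_eq_mul]
        have := hD P
        have := hDgnn P
        positivity
    rw [map_add, map_nsmul, nsmul_eq_mul] at h3
    have h2' : (Module.finrank k (riemannRochSpace (K := k) ((m₀ + i) • E)) : ℤ) ≤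
        (Module.finrank K (riemannRochSpace (K := K) (i • D + Dg)) : ℤ) := by
      exact_mod_cast h2.trans hleR
    rw [← hd] at h3
    linarith
  have hi := hcount (Divisor.degree Dg + γ).toNat
  have hi' : Divisor.degree Dg + γ ≤ ((Divisor.degree Dg + γ).toNat : ℤ) := Int.self_le_toNat _
  set i := (Divisor.degree Dg + γ).toNat
  have hm₀' : (1 : ℤ) ≤ (m₀ : ℤ) := by rw [hm₀]; push_cast; omega
  have hmul : ((m₀ + i : ℕ) : ℤ) * (d + 1) ≤ ((m₀ + i : ℕ) : ℤ) * e :=
    mul_le_mul_of_nonneg_left (by omega) (by positivity)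
  push_cast at hi hmul
  nlinarith
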