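import Fermat.Agent.RIN.LBasic

/-!
# The tight bounding divisor of a finite-dimensional space of functions
-/

set_option autoImplicit false

namespace Fermat.Agent.RIN

open AlgebraicCurve

variable {K F : Type*} [Field K] [Field F] [Algebra K F]

/-- `E` is the tight bound of `W`: every nonzero element of `W` has `div ≥ -E`, and at every
place the bound is attained. -/
def IsTight (W : Submodule K F) (E : Divisor K F) : Prop :=
  (∀ g ∈ W, g ≠ 0 → ∀ Q : Place K F, -E Q ≤ Q.ord g) ∧
    ∀ Q : Place K F, ∃ g ∈ W, g ≠ 0 ∧ Q.ord g = -E Q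

theorem IsTight.le_L {W : Submodule K F} {E : Divisor K F} (h : IsTight W E) :
    W ≤ riemannRochSpace E := by
  intro g hg
  rw [mem_riemannRochSpace_iff]
  intro v
  by_cases h0 : g = 0
  · exact Or.inl h0
  · exact Or.inr (h.1 g hg h0 v)

theorem IsTight.mono {W W' : Submodule K F} {E E' : Divisor K F} (h : IsTight W E)
    (h' : IsTight W' E') (hle : W ≤ W') (Q : Place K F) : E Q ≤ E' Q := by
  obtain ⟨g, hg, hg0, hord⟩ := h.2 Q
  have := h'.1 g (hle hg) hg0 Q
  omega

theorem IsTight.unique {W : Submodule K F} {E E' : Divisor K F} (h : IsTight W E)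
    (h' : IsTight W E') : E = E' := by
  ext Q
  exact le_antisymm (h.mono h' le_rfl Q) (h'.mono h le_rfl Q)

theorem IsTight.nonneg {W : Submodule K F} {E : Divisor K F} (h : IsTight W E)
    (h1 : (1 : F) ∈ W) (Q : Place K F) : 0 ≤ E Q := by
  have := h.1 1 h1 one_ne_zero Q
  rw [Place.ord_one] at this
  omega

theorem IsTight.add_le {W₁ W₂ W₃ : Submodule K F} {E₁ E₂ E₃ : Divisor K F}
    (h₁ : IsTight W₁ E₁) (h₂ : IsTight W₂ E₂) (h₃ : IsTight W₃ E₃)
    (hmul : ∀ g₁ ∈ W₁, ∀ g₂ ∈ W₂, g₁ * g₂ ∈ W₃) (Q : Place K F) :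
    E₁ Q + E₂ Q ≤ E₃ Q := by
  obtain ⟨g₁, hg₁, h10, ho1⟩ := h₁.2 Q
  obtain ⟨g₂, hg₂, h20, ho2⟩ := h₂.2 Q
  have := h₃.1 (g₁ * g₂) (hmul g₁ hg₁ g₂ hg₂) (mul_ne_zero h10 h20) Q
  rw [Q.ord_mul h10 h20] at this
  omega

/-- existence of the tight bound of a nonzero finite-dimensional subspace -/
theorem exists_isTight [HasPrincipalDivisors K F] (W : Submodule K F) [FiniteDimensional K W]
    (hW : W ≠ ⊥) : ∃ E : Divisor K F, IsTight W E := by
  classical
  set n := Module.finrank K W with hn
  have hnpos : 0 < n := by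
    rw [hn]
    exact Module.finrank_pos_iff.mpr (Submodule.nontrivial_iff_ne_bot.mpr hW)
  let b := Module.finBasis K W
  have hb0 : ∀ i, ((b i : W) : F) ≠ 0 := fun i h =>
    b.ne_zero i (Subtype.ext h)
  have : Nonempty (Fin n) := ⟨⟨0, hnpos⟩⟩
  let val : Place K F → ℤ := fun Q =>
    Finset.univ.sup' Finset.univ_nonempty (fun i : Fin n => -(Q.ord ((b i : W) : F)))
  let S : Finset (Place K F) := Finset.univ.biUnion fun i : Fin n => (divOf K ((b i : W) : F)).support
  have hval : ∀ Q, val Q ≠ 0 → Q ∈ S := by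
    intro Q hQ
    by_contra hS
    apply hQ
    have h0 : ∀ i : Fin n, Q.ord ((b i : W) : F) = 0 := by
      intro i
      have : Q ∉ (divOf K ((b i : W) : F)).support := fun h =>
        hS (Finset.mem_biUnion.mpr ⟨i, Finset.mem_univ _, h⟩)
      rw [Finsupp.notMem_support_iff, divOf_apply] at this
      exact this
    show Finset.univ.sup' Finset.univ_nonempty (fun i : Fin n => -(Q.ord ((b i : W) : F))) = 0
    apply le_antisymm
    · apply Finset.sup'_le
      intro i _
      rw [h0 i]; simp
    · have h1 : -(Q.ord ((b ⟨0, hnpos⟩ : W) : F)) ≤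
          Finset.univ.sup' Finset.univ_nonempty (fun i : Fin n => -(Q.ord ((b i : W) : F))) :=
        Finset.le_sup' (fun i : Fin n => -(Q.ord ((b i : W) : F)))
          (Finset.mem_univ (⟨0, hnpos⟩ : Fin n))
      rw [h0 ⟨0, hnpos⟩, neg_zero] at h1
      exact h1
  let E : Divisor K F := Finsupp.onFinset S val hval
  have hE : ∀ Q, E Q = val Q := fun Q => rfl
  refine ⟨E, ?_, ?_⟩
  · -- W ≤ L(E)
    have hle : W ≤ riemannRochSpace E := by
      have hspan : W = Submodule.span K (Set.range fun i => ((b i : W) : F)) := by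
        have h1 := b.span_eq
        have h2 : Submodule.map W.subtype (Submodule.span K (Set.range b)) = W := by
          rw [h1, Submodule.map_top, Submodule.range_subtype]
        rw [Submodule.map_span, ← Set.range_comp] at h2
        exact h2.symm
      rw [hspan, Submodule.span_le]
      rintro _ ⟨i, rfl⟩
      show ((b i : W) : F) ∈ riemannRochSpace E
      rw [mem_riemannRochSpace_iff]
      intro v
      right
      rw [hE]
      have := Finset.le_sup' (fun i : Fin n => -(v.ord ((b i : W) : F))) (Finset.mem_univ i)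
      show -val v ≤ _
      have h2 : -(v.ord ((b i : W) : F)) ≤ val v := this
      omega
    intro g hg hg0 Q
    have := hle hg
    rw [mem_riemannRochSpace_iff] at this
    exact (this Q).resolve_left hg0
  · intro Q
    obtain ⟨i, _, hi⟩ := Finset.exists_mem_eq_sup' Finset.univ_nonempty
      (fun i : Fin n => -(Q.ord ((b i : W) : F)))
    refine ⟨((b i : W) : F), (b i).2, hb0 i, ?_⟩
    rw [hE]
    show _ = -(Finset.univ.sup' Finset.univ_nonempty (fun i : Fin n => -(Q.ord ((b i : W) : F))))
    rw [hi]; ring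

/-- a generic element attains the tight bound at finitely many prescribed places -/
theorem IsTight.exists_generic [Infinite K] {W : Submodule K F} [FiniteDimensional K W]
    {E : Divisor K F} (h : IsTight W E) (hW : W ≠ ⊥) (S : Finset (Place K F)) :
    ∃ g ∈ W, g ≠ 0 ∧ ∀ Q ∈ S, Q.ord g = -E Q := by
  classical
  let V : Place K F → Submodule K W := fun Q =>
    (riemannRochSpace (E - Finsupp.single Q 1)).comap W.subtype
  let s : Finset (Submodule K W) := insert ⊥ (S.image V)
  have hs : (⊤ : Submodule K W) ∉ s := by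
    intro htop
    rcases Finset.mem_insert.mp htop with h0 | h1
    · have : Nontrivial W := Submodule.nontrivial_iff_ne_bot.mpr hW
      exact top_ne_bot h0
    · obtain ⟨Q, _, hQ⟩ := Finset.mem_image.mp h1
      obtain ⟨g, hg, hg0, hord⟩ := h.2 Q
      have hmem : (⟨g, hg⟩ : W) ∈ V Q := by rw [hQ]; trivial
      have hmem' : g ∈ riemannRochSpace (E - Finsupp.single Q 1) := hmem
      rw [mem_riemannRochSpace_iff] at hmem'
      have := (hmem' Q).resolve_left hg0
      rw [Finsupp.sub_apply, Finsupp.single_eq_same] at this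
      omega
  have hne := Subspace.biUnion_ne_univ_of_top_notMem hs
  obtain ⟨x, hx⟩ : ∃ x : W, x ∉ ⋃ p ∈ s, (p : Set W) := by
    by_contra hall
    push Not at hall
    exact hne (Set.eq_univ_of_forall hall)
  simp only [Set.mem_iUnion, not_exists] at hx
  have hx0 : x ≠ 0 := by
    intro h0
    exact hx ⊥ (Finset.mem_insert_self _ _) (by rw [h0]; exact Submodule.zero_mem _)
  have hxF : (x : F) ≠ 0 := fun h0 => hx0 (Subtype.ext h0)
  refine ⟨x, x.2, hxF, ?_⟩
  intro Q hQ
  have h1 := h.1 x x.2 hxF Q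
  have h2 : ¬ ((x : F) ∈ riemannRochSpace (E - Finsupp.single Q 1)) := by
    intro hmem
    exact hx (V Q) (Finset.mem_insert_of_mem (Finset.mem_image_of_mem V hQ)) hmem
  by_contra hne'
  apply h2
  rw [mem_riemannRochSpace_iff]
  intro v
  right
  have h3 := h.1 x x.2 hxF v
  rw [Finsupp.sub_apply]
  by_cases hv : v = Q
  · subst hv
    rw [Finsupp.single_eq_same]
    omega
  · rw [Finsupp.single_eq_of_ne hv]
    omega

/-- the pole divisor of a generic element is the tight bound -/
theorem IsTight.exists_poleDiv_eq [Infinite K] [HasPrincipalDivisors K F] {W : Submodule K F}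
    [FiniteDimensional K W] {E : Divisor K F} (h : IsTight W E) (h1 : (1 : F) ∈ W) :
    ∃ g ∈ W, g ≠ 0 ∧ poleDiv K g = E := by
  have hW : W ≠ ⊥ := by
    intro hbot
    rw [hbot, Submodule.mem_bot] at h1
    exact one_ne_zero h1
  obtain ⟨g, hg, hg0, hord⟩ := h.exists_generic hW E.support
  refine ⟨g, hg, hg0, ?_⟩
  ext Q
  rw [poleDiv_apply]
  by_cases hQ : Q ∈ E.support
  · rw [hord Q hQ, neg_neg]
    exact max_eq_left (h.nonneg h1 Q)
  · rw [Finsupp.notMem_support_iff] at hQ
    have := h.1 g hg hg0 Q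
    rw [hQ] at this ⊢
    exact max_eq_right (by omega)

end Fermat.Agent.RIN
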