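import Fermat.Agent.RIN.PoleBound
import Fermat.Agent.RIN.Tight

/-!
# The tight reduction `rho D` of an effective divisor: degree, additivity
-/

set_option autoImplicit false
set_option linter.unusedSectionVars false

namespace Fermat.Agent.RIN

open AlgebraicCurve

variable {K F k Fb : Type*} [Field K] [Field F] [Algebra K F] [Field k] [Field Fb] [Algebra k Fb]
variable {O : ValuationSubring F} {red : O →+* Fb}

/-- the numerical hypotheses of the abstract good reduction theorem -/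
structure Hyp (hO : IsConstRed K k O red) (γ : ℤ) : Prop where
  degF : ∀ P : Place K F, P.deg = 1
  degFb : ∀ Q : Place k Fb, Q.deg = 1
  RF : ∀ D : Divisor K F,
    Divisor.degree D + 1 - γ ≤ (Module.finrank K (riemannRochSpace D) : ℤ)
  RFb : ∀ E : Divisor k Fb,
    Divisor.degree E + 1 - γ ≤ (Module.finrank k (riemannRochSpace E) : ℤ)
  RFb' : ∃ c : ℤ, ∀ E : Divisor k Fb, c ≤ Divisor.degree E →
    (Module.finrank k (riemannRochSpace E) : ℤ) ≤ Divisor.degree E + 1 - γ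
  lat : ∀ M : Submodule K F, FiniteDimensional K M →
    ∃ b : Fin (Module.finrank K M) → F, ∃ hb : ∀ i, b i ∈ O, (∀ i, b i ∈ M) ∧
      LinearIndependent k (fun i => red ⟨b i, hb i⟩)

/-- reduction of `L(D)` -/
def Mb (hO : IsConstRed K k O red) (D : Divisor K F) : Submodule k Fb :=
  redSpace hO (riemannRochSpace D)

theorem one_mem_Mb (hO : IsConstRed K k O red) {D : Divisor K F} (hD : ∀ P, 0 ≤ D P) :
    (1 : Fb) ∈ Mb hO D := by
  have := red_mem_redSpace hO (one_mem_L hD) O.one_mem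
  have e : (⟨1, O.one_mem⟩ : O) = 1 := rfl
  rwa [e, map_one] at this

theorem Mb_mono (hO : IsConstRed K k O red) {D D' : Divisor K F} (h : ∀ P, D P ≤ D' P) :
    Mb hO D ≤ Mb hO D' :=
  redSpace_mono hO (L_mono h)

theorem mul_mem_Mb (hO : IsConstRed K k O red) {D₁ D₂ : Divisor K F} {g₁ g₂ : Fb}
    (h₁ : g₁ ∈ Mb hO D₁) (h₂ : g₂ ∈ Mb hO D₂) : g₁ * g₂ ∈ Mb hO (D₁ + D₂) := by
  obtain ⟨f₁, hf₁L, hf₁, rfl⟩ := h₁
  obtain ⟨f₂, hf₂L, hf₂, rfl⟩ := h₂
  have := red_mem_redSpace hO (mul_mem_L hf₁L hf₂L) (O.mul_mem _ _ hf₁ hf₂)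
  have e : (⟨f₁ * f₂, O.mul_mem _ _ hf₁ hf₂⟩ : O) = ⟨f₁, hf₁⟩ * ⟨f₂, hf₂⟩ := rfl
  rwa [e, map_mul] at this

section

variable [Infinite k] [Nonempty (Place K F)] [Nonempty (Place k Fb)]
  [HasPrincipalDivisors K F] [HasPrincipalDivisors k Fb]
variable {hO : IsConstRed K k O red} {γ : ℤ}

theorem Mb_finite (H : Hyp hO γ) (D : Divisor K F) : FiniteDimensional k (Mb hO D) := by
  have : FiniteDimensional K (riemannRochSpace (K := K) D) := L_finite H.degF D
  exact (finrank_redSpace_le hO (riemannRochSpace D)).1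

theorem finrank_Mb (H : Hyp hO γ) (D : Divisor K F) :
    Module.finrank k (Mb hO D) = Module.finrank K (riemannRochSpace (K := K) D) := by
  have : FiniteDimensional K (riemannRochSpace (K := K) D) := L_finite H.degF D
  exact finrank_redSpace_eq hO _ (H.lat _ this)

open Classical in
/-- the tight bound of the reduction of `L(D)` -/
noncomputable def rho (hO : IsConstRed K k O red) (D : Divisor K F) : Divisor k Fb :=
  if h : ∃ E, IsTight (Mb hO D) E then h.choose else 0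

theorem isTight_rho (H : Hyp hO γ) {D : Divisor K F} (hD : ∀ P, 0 ≤ D P) :
    IsTight (Mb hO D) (rho hO D) := by
  have hfin := Mb_finite H D
  have hne : Mb hO D ≠ ⊥ := by
    intro hbot
    have h1 := one_mem_Mb hO hD
    rw [hbot, Submodule.mem_bot] at h1
    exact one_ne_zero h1
  have hex := exists_isTight (Mb hO D) hne
  unfold rho
  rw [dif_pos hex]
  exact hex.choose_spec

theorem rho_nonneg (H : Hyp hO γ) {D : Divisor K F} (hD : ∀ P, 0 ≤ D P) (Q : Place k Fb) :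
    0 ≤ rho hO D Q :=
  (isTight_rho H hD).nonneg (one_mem_Mb hO hD) Q

theorem rho_mono (H : Hyp hO γ) {D D' : Divisor K F} (hD : ∀ P, 0 ≤ D P)
    (h : ∀ P, D P ≤ D' P) (Q : Place k Fb) : rho hO D Q ≤ rho hO D' Q :=
  (isTight_rho H hD).mono (isTight_rho H fun P => (hD P).trans (h P)) (Mb_mono hO h) Q

theorem rho_add_le (H : Hyp hO γ) {D₁ D₂ : Divisor K F} (hD₁ : ∀ P, 0 ≤ D₁ P)
    (hD₂ : ∀ P, 0 ≤ D₂ P) (Q : Place k Fb) :
    rho hO D₁ Q + rho hO D₂ Q ≤ rho hO (D₁ + D₂) Q :=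
  (isTight_rho H hD₁).add_le (isTight_rho H hD₂)
    (isTight_rho H fun P => by rw [Finsupp.add_apply]; exact add_nonneg (hD₁ P) (hD₂ P))
    (fun _ h₁ _ h₂ => mul_mem_Mb hO h₁ h₂) Q

theorem degree_rho_le (H : Hyp hO γ) {D : Divisor K F} (hD : ∀ P, 0 ≤ D P) :
    Divisor.degree (rho hO D) ≤ Divisor.degree D := by
  have hfin := Mb_finite H D
  obtain ⟨g, hg, hg0, hpole⟩ := (isTight_rho H hD).exists_poleDiv_eq (one_mem_Mb hO hD)
  obtain ⟨f, hfL, hf, rfl⟩ := hg
  rw [← hpole]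
  exact pole_bound hO H.degF H.degFb γ H.RFb H.RFb' hD hfL hf hg0

/-- above a threshold, `rho` preserves the degree -/
theorem exists_degree_rho_eq (H : Hyp hO γ) :
    ∃ c₁ : ℤ, ∀ D : Divisor K F, (∀ P, 0 ≤ D P) → c₁ ≤ Divisor.degree D →
      Divisor.degree (rho hO D) = Divisor.degree D := by
  obtain ⟨c, hc⟩ := H.RFb'
  refine ⟨c + γ, fun D hD hbig => le_antisymm (degree_rho_le H hD) ?_⟩
  have hT := isTight_rho H hD
  have hfinL : FiniteDimensional k (riemannRochSpace (K := k) (rho hO D)) := L_finite H.degFb _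
  have h1 : Module.finrank k (Mb hO D) ≤ Module.finrank k (riemannRochSpace (K := k) (rho hO D)) :=
    Submodule.finrank_mono hT.le_L
  rw [finrank_Mb H D] at h1
  have h2 := H.RF D
  have h1' : (Module.finrank K (riemannRochSpace (K := K) D) : ℤ) ≤
      (Module.finrank k (riemannRochSpace (K := k) (rho hO D)) : ℤ) := by exact_mod_cast h1
  by_cases hcase : c ≤ Divisor.degree (rho hO D)
  · have h3 := hc _ hcase
    linarith
  · exfalso
    have h3 : (Module.finrank k (riemannRochSpace (K := k) (rho hO D)) : ℤ) ≤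
        Divisor.degree (rho hO D) + 1 := finrank_L_le H.degFb (rho_nonneg H hD)
    push Not at hcase
    linarith

theorem rho_add (H : Hyp hO γ) {c₁ : ℤ}
    (hc₁ : ∀ D : Divisor K F, (∀ P, 0 ≤ D P) → c₁ ≤ Divisor.degree D →
      Divisor.degree (rho hO D) = Divisor.degree D)
    {D₁ D₂ : Divisor K F} (hD₁ : ∀ P, 0 ≤ D₁ P) (hD₂ : ∀ P, 0 ≤ D₂ P)
    (h₁ : c₁ ≤ Divisor.degree D₁) (h₂ : c₁ ≤ Divisor.degree D₂) :
    rho hO (D₁ + D₂) = rho hO D₁ + rho hO D₂ := by
  symm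
  apply eq_of_le_of_degree_le H.degFb
  · intro Q
    rw [Finsupp.add_apply]
    exact rho_add_le H hD₁ hD₂ Q
  · have h12 : ∀ P, 0 ≤ (D₁ + D₂) P := fun P => by
      rw [Finsupp.add_apply]; exact add_nonneg (hD₁ P) (hD₂ P)
    have hd2 : 0 ≤ Divisor.degree D₂ := degree_nonneg hD₂
    rw [map_add, hc₁ D₁ hD₁ h₁, hc₁ D₂ hD₂ h₂, hc₁ (D₁ + D₂) h12 (by rw [map_add]; linarith),
      map_add]

end

end Fermat.Agent.RIN
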